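import Fermat.Agent.SuzukiCA.Basic
import Fermat.Agent.CharacterTheory.Artin
import Mathlib.RingTheory.IntegralDomain

/-!
# Functions induced from a self-centralising subgroup

For a self-centralising trivial-intersection subgroup `A` the functions induced from differences of
linear characters of `A` have inner products given by the orbits of the normaliser, and functions
induced from non-conjugate such subgroups are orthogonal.
-/

set_option autoImplicit false
set_option linter.style.haveILetI false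

noncomputable section

open Finset FA.FrobeniusGroups FA.CharacterTheory
open scoped Classical

namespace FA.SuzukiCA

variable {G : Type*} [Group G] [Fintype G] {A B : Subgroup G}

/-- The nontrivial linear characters. -/
def Lin (A : Subgroup G) : Finset (A → ℂ) := (irr A).erase fun _ => 1

/-- The twist by an element of the normaliser. -/
def tw (n : Subgroup.normalizer (A : Set G)) (p : A → ℂ) : A → ℂ :=
  fun x => p ⟨n * x * (n : G)⁻¹, conj_mem_of_normalizer n.2 x.2⟩

/-- Conjugate under the normaliser. -/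
def Rel (p q : A → ℂ) : Prop := ∃ n : Subgroup.normalizer (A : Set G), tw n p = q

/-- The indicator of conjugacy. -/
def ind (p q : A → ℂ) : ℤ := if Rel p q then 1 else 0

/-- The restriction to `A`. -/
def res (A : Subgroup G) (ψ : G → ℂ) : A → ℂ := fun x => ψ x

/-- The multiplicity of `p` in the restriction of `ψ`. -/
def mult (A : Subgroup G) (ψ : G → ℂ) (p : A → ℂ) : ℤ :=
  if h : ∃ k : ℤ, pairing p (res A ψ) = k then h.choose else 0

theorem hom_mem_irr {K : Type*} [Group K] [Fintype K] (ψ : K →* ℂˣ) :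
    (fun x => (ψ x : ℂ)) ∈ irr K := by
  set σ : Representation ℂ K ℂ :=
    ((algebraMap ℂ (Module.End ℂ ℂ)).toMonoidHom.comp (Units.coeHom ℂ)).comp ψ
  have hσ : σ.character = fun x => (ψ x : ℂ) := funext fun x => by
    show LinearMap.trace ℂ ℂ (algebraMap ℂ (Module.End ℂ ℂ) (ψ x : ℂ)) = _
    rw [Algebra.algebraMap_eq_smul_one, map_smul, LinearMap.trace_one, Module.finrank_self]
    simp
  rw [← hσ]
  refine mem_irr_of_norm σ ?_
  rw [hσ]
  simp [pairing, Nat.card_eq_fintype_card, Fintype.card_ne_zero]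

omit [Fintype G] in
theorem tw_mul (m n : Subgroup.normalizer (A : Set G)) (p : A → ℂ) :
    tw n (tw m p) = tw (m * n) p :=
  funext fun x => congrArg p (Subtype.ext (by push_cast; group))

omit [Fintype G] in
theorem tw_one (p : A → ℂ) : tw (1 : Subgroup.normalizer (A : Set G)) p = p :=
  funext fun x => congrArg p (Subtype.ext (by simp))

omit [Fintype G] in
theorem tw_const (n : Subgroup.normalizer (A : Set G)) :
    tw n (fun _ : A => (1 : ℂ)) = fun _ => 1 := rfl

omit [Fintype G] in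
theorem tw_eq_iff (m : Subgroup.normalizer (A : Set G)) (p q : A → ℂ) :
    tw m p = q ↔ p = tw m⁻¹ q := by
  constructor
  · intro h; rw [← h, tw_mul, mul_inv_cancel, tw_one]
  · intro h; rw [h, tw_mul, inv_mul_cancel, tw_one]

omit [Fintype G] in
theorem Rel.refl (p : A → ℂ) : Rel p p := ⟨1, tw_one p⟩

omit [Fintype G] in
theorem Rel.symm {p q : A → ℂ} : Rel p q → Rel q p :=
  fun ⟨n, h⟩ => ⟨n⁻¹, ((tw_eq_iff n p q).1 h).symm⟩

omit [Fintype G] in
theorem Rel.trans {p q r : A → ℂ} : Rel p q → Rel q r → Rel p r :=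
  fun ⟨n, h⟩ ⟨k, h'⟩ => ⟨n * k, by rw [← tw_mul, h, h']⟩

omit [Fintype G] in
theorem ind_comm (p q : A → ℂ) : ind p q = ind q p :=
  if_congr ⟨Rel.symm, Rel.symm⟩ rfl rfl

variable (hA : Sc A)

include hA

omit [Fintype G] in
theorem Sc.comm' (a b : A) : a * b = b * a := Subtype.ext (hA.comm a a.2 b b.2)

theorem Sc.exists_hom {p : A → ℂ} (hp : p ∈ irr A) : ∃ ψ : A →* ℂˣ, (fun x => (ψ x : ℂ)) = p :=
  exists_hom_of_comm hA.comm' hp

theorem Sc.irr_apply_one {p : A → ℂ} (hp : p ∈ irr A) : p 1 = 1 := irr_one_of_comm hA.comm' hp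

theorem Sc.tw_mem {p : A → ℂ} (hp : p ∈ irr A) (n : Subgroup.normalizer (A : Set G)) :
    tw n p ∈ irr A := by
  obtain ⟨ψ, rfl⟩ := hA.exists_hom hp
  let c : A →* A :=
    { toFun := fun x => ⟨n * x * (n : G)⁻¹, conj_mem_of_normalizer n.2 x.2⟩
      map_one' := Subtype.ext (by simp)
      map_mul' := fun x y => Subtype.ext (by push_cast; group) }
  exact hom_mem_irr (ψ.comp c)

theorem Sc.tw_mem_Lin {p : A → ℂ} (hp : p ∈ Lin A) (n : Subgroup.normalizer (A : Set G)) :
    tw n p ∈ Lin A := by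
  obtain ⟨hne, hp⟩ := mem_erase.1 hp
  refine mem_erase.2 ⟨fun h => hne ?_, hA.tw_mem hp n⟩
  rw [(tw_eq_iff n p _).1 h, tw_const]

theorem Sc.card_irr_eq : (irr A).card = Nat.card A := by
  rw [card_irr]
  refine (Nat.card_congr (Equiv.ofBijective (ConjClasses.mk : A → ConjClasses A)
    ⟨fun x y h => ?_, ConjClasses.mk_surjective⟩)).symm
  obtain ⟨c, hc⟩ := isConj_iff.1 (ConjClasses.mk_eq_mk_iff_isConj.1 h)
  rw [← hc, hA.comm' c x, mul_inv_cancel_right]

theorem Sc.card_Lin : (Lin A).card + 1 = Nat.card A := by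
  rw [Lin, card_erase_add_one one_mem_irr, hA.card_irr_eq]

/-- **The stabiliser of a nontrivial linear character is `A`.** -/
theorem Sc.tw_eq_self_iff {p : A → ℂ} (hp : p ∈ Lin A) (n : Subgroup.normalizer (A : Set G)) :
    tw n p = p ↔ (n : G) ∈ A := by
  obtain ⟨hne, hp⟩ := mem_erase.1 hp
  constructor
  · intro h
    by_contra hn
    obtain ⟨ψ, rfl⟩ := hA.exists_hom hp
    let c : A → A := fun x => ⟨n * x * (n : G)⁻¹ * (x : G)⁻¹,
      mul_mem (conj_mem_of_normalizer n.2 x.2) (inv_mem x.2)⟩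
    have hinj : Function.Injective c := by
      intro x y hxy
      have he : (n : G) * ((y : G)⁻¹ * x) * (n : G)⁻¹ = (y : G)⁻¹ * x := by
        have h1 := congrArg Subtype.val hxy
        simp only [c] at h1
        rw [mul_inv_eq_iff_eq_mul] at h1
        have h2 := hA.comm _ (inv_mem y.2) _ x.2
        calc (n : G) * ((y : G)⁻¹ * x) * (n : G)⁻¹
            = ((n : G) * y * (n : G)⁻¹)⁻¹ * (n * x * (n : G)⁻¹) := by group
          _ = (y : G)⁻¹ * x := by rw [h1]; group
      by_contra hne'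
      refine hn ((hA.cent _ (mul_mem (inv_mem y.2) x.2) (fun e => hne' ?_) n).2 ?_)
      · exact Subtype.ext (inv_mul_eq_one.1 e).symm
      · exact mul_inv_eq_iff_eq_mul.1 he
    refine hne (funext fun x => ?_)
    obtain ⟨y, rfl⟩ := (Finite.injective_iff_surjective.1 hinj) x
    have hy := congrFun h y
    simp only [tw] at hy
    have hval : c y = ⟨n * y * (n : G)⁻¹, conj_mem_of_normalizer n.2 y.2⟩ * y⁻¹ :=
      Subtype.ext rfl
    show (ψ (c y) : ℂ) = 1
    rw [hval, map_mul, map_inv, Units.val_mul, Units.val_inv_eq_inv_val, hy,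
      mul_inv_cancel₀ (Units.ne_zero _)]
  · intro h
    refine funext fun x => congrArg p (Subtype.ext ?_)
    show (n : G) * x * (n : G)⁻¹ = x
    rw [hA.comm _ h _ x.2, mul_inv_cancel_right]

theorem Sc.card_twists {p : A → ℂ} (hp : p ∈ Lin A) (q : A → ℂ) :
    ((univ : Finset (Subgroup.normalizer (A : Set G))).filter fun n => tw n p = q).card =
      if Rel p q then Nat.card A else 0 := by
  split_ifs with h
  · obtain ⟨m, rfl⟩ := h
    rw [← Fintype.card_subtype, ← Nat.card_eq_fintype_card]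
    have key : ∀ n : Subgroup.normalizer (A : Set G), tw n p = tw m p ↔ ((n * m⁻¹ : _) : G) ∈ A :=
      fun n => by
      rw [← hA.tw_eq_self_iff hp, ← tw_mul, tw_eq_iff m⁻¹, inv_inv]
    exact Nat.card_congr
      { toFun := fun n => ⟨_, (key n).1 n.2⟩
        invFun := fun a => ⟨⟨a, Subgroup.le_normalizer a.2⟩ * m, (key _).2 (by simp)⟩
        left_inv := fun n => Subtype.ext (Subtype.ext (by simp))
        right_inv := fun a => Subtype.ext (by simp) }
  · exact card_eq_zero.2 (filter_eq_empty_iff.2 fun n _ hn => h ⟨n, hn⟩)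

theorem Sc.card_orbit {p : A → ℂ} (hp : p ∈ Lin A) :
    ((Lin A).filter (Rel p)).card = en A := by
  have h := card_eq_sum_card_fiberwise (f := fun n : Subgroup.normalizer (A : Set G) => tw n p)
    (s := univ) (t := Lin A) fun n _ => hA.tw_mem_Lin hp n
  rw [card_univ, ← Nat.card_eq_fintype_card, sum_congr rfl fun q _ => hA.card_twists hp q,
    ← sum_filter, sum_const, smul_eq_mul, ← en_mul_card] at h
  exact Nat.eq_of_mul_eq_mul_right Nat.card_pos h.symm

omit hA

theorem induced_conj (φ : A → ℂ) (g x : G) : induced A φ (g * x * g⁻¹) = induced A φ x := by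
  simp only [induced]
  congr 1
  refine Fintype.sum_equiv (Equiv.mulRight g) _ _ fun k => ?_
  have he : k * g * x * (k * g)⁻¹ = k * (g * x * g⁻¹) * k⁻¹ := by group
  simp only [Equiv.coe_mulRight, he]

theorem induced_one {φ : A → ℂ} (h : φ 1 = 0) : induced A φ 1 = 0 := by
  rw [induced, sum_eq_zero fun g _ => ?_, mul_zero]
  split_ifs with hg
  · rw [show (⟨_, hg⟩ : A) = 1 from Subtype.ext (by simp), h]
  · rfl

/-- Parseval for class functions. -/
theorem pairing_eq_sum {f : G → ℂ} (hf : ∀ g x, f (g * x * g⁻¹) = f x) (f' : G → ℂ) :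
    pairing f f' = ∑ χ ∈ irr G, pairing f χ * pairing f' χ := by
  conv_lhs => arg 1; rw [funext fun x => expansion hf x]
  rw [pairing_sum_left (irr G) (fun χ => pairing f χ) fun χ => χ]
  exact sum_congr rfl fun χ _ => by rw [pairing_comm χ f']

theorem pairing_sub_right {K : Type*} [Group K] [Fintype K] (f g g' : K → ℂ) :
    pairing f (fun x => g x - g' x) = pairing f g - pairing f g' := by
  rw [pairing_comm f, pairing_sub_left, pairing_comm g, pairing_comm g']

/-- The averaged pairing over the normaliser. -/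
def avg (p q : A → ℂ) : ℂ :=
  (Nat.card A : ℂ)⁻¹ * ∑ n : Subgroup.normalizer (A : Set G), pairing p (tw n q)

include hA

/-- **Inner products of induced functions.** -/
theorem Sc.pairing_induced_induced (φ : A → ℂ) {φ' : A → ℂ} (h : φ' 1 = 0) :
    pairing (induced A φ) (induced A φ') = avg φ φ' := by
  rw [pairing_induced A φ (induced_conj φ')]
  have hres : (fun x : A => induced A φ' x) =
      fun x => (Nat.card A : ℂ)⁻¹ * ∑ n : Subgroup.normalizer (A : Set G), tw n φ' x := by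
    funext x
    rcases eq_or_ne x 1 with rfl | hx
    · rw [Subgroup.coe_one, induced_one h, sum_eq_zero fun n _ => ?_, mul_zero]
      simp only [tw]
      rw [show (⟨(n : G) * ((1 : A) : G) * (n : G)⁻¹, _⟩ : A) = 1 from Subtype.ext (by simp), h]
    · have hx' : (x : G) ≠ 1 := fun e => hx (Subtype.ext e)
      rw [induced]
      congr 1
      rw [← sum_filter_add_sum_filter_not univ (· ∈ Subgroup.normalizer (A : Set G)),
        sum_eq_zero (s := univ.filter fun g => ¬ g ∈ Subgroup.normalizer (A : Set G)) ?_, add_zero,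
        sum_subtype _ (p := (· ∈ Subgroup.normalizer (A : Set G))) (by simp)]
      · exact sum_congr rfl fun n _ => dif_pos (conj_mem_of_normalizer n.2 x.2)
      · exact fun g hg => dif_neg fun hm => (mem_filter.1 hg).2 (hA.mem_normalizer x.2 hx' hm)
  rw [hres, avg, pairing_comm]
  simp only [mul_sum]
  rw [pairing_sum_left univ (fun _ => (Nat.card A : ℂ)⁻¹) fun n => tw n φ']
  exact sum_congr rfl fun n _ => by rw [pairing_comm]

/-- **Non-conjugate subgroups.** -/
theorem Sc.pairing_induced_disjoint (hB : Sc B) (hAB : ¬ Cj B A) (φ : A → ℂ) {φ' : B → ℂ}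
    (h : φ' 1 = 0) : pairing (induced A φ) (induced B φ') = 0 := by
  rw [pairing_induced A φ (induced_conj φ'), pairing, sum_eq_zero fun x _ => ?_, mul_zero]
  rcases eq_or_ne x 1 with rfl | hx
  · rw [inv_one, Subgroup.coe_one, induced_one h, mul_zero]
  have hx' : ((x⁻¹ : A) : G) ≠ 1 := fun e => hx (inv_eq_one.1 (Subtype.ext e))
  rw [induced, sum_eq_zero fun g _ => ?_, mul_zero, mul_zero]
  refine dif_neg fun hg => hAB ⟨g, fun y => ?_⟩
  rw [hA.cent _ (x⁻¹).2 hx' y, hB.cent _ hg (fun e => hx' (conj_eq_one_iff.1 e)),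
    show g * y * g⁻¹ * (g * ((x⁻¹ : A) : G) * g⁻¹) = g * (y * ((x⁻¹ : A) : G)) * g⁻¹ by group,
    show g * ((x⁻¹ : A) : G) * g⁻¹ * (g * y * g⁻¹) = g * (((x⁻¹ : A) : G) * y) * g⁻¹ by group,
    mul_left_inj, mul_right_inj]

theorem Sc.avg_Lin {p q : A → ℂ} (hp : p ∈ Lin A) (hq : q ∈ Lin A) : avg p q = ind p q := by
  rw [avg, sum_congr rfl fun n _ =>
    pairing_irr (mem_erase.1 hp).2 (hA.tw_mem (mem_erase.1 hq).2 n), sum_boole,
    filter_congr fun n _ => eq_comm, hA.card_twists hq p, ind_comm p q, ind]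
  split_ifs with h
  · rw [inv_mul_cancel₀ (Nat.cast_ne_zero.2 Nat.card_pos.ne'), Int.cast_one]
  · rw [Nat.cast_zero, mul_zero, Int.cast_zero]

theorem Sc.avg_Lin_one {p : A → ℂ} (hp : p ∈ Lin A) :
    avg p (fun _ => 1) = 0 ∧ avg (fun _ => 1) p = 0 := by
  refine ⟨?_, ?_⟩
  · rw [avg, sum_congr rfl fun n _ => by
      rw [tw_const, pairing_irr (mem_erase.1 hp).2 one_mem_irr, if_neg (mem_erase.1 hp).1],
      sum_const_zero, mul_zero]
  · rw [avg, sum_congr rfl fun n _ => by
      rw [pairing_irr one_mem_irr (hA.tw_mem (mem_erase.1 hp).2 n),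
        if_neg fun h => (mem_erase.1 (hA.tw_mem_Lin hp n)).1 h.symm], sum_const_zero, mul_zero]

omit hA in
theorem avg_one_one : avg (A := A) (fun _ => 1) (fun _ => 1) = (en A : ℂ) := by
  rw [avg, sum_congr rfl fun n _ => by rw [tw_const, pairing_irr one_mem_irr one_mem_irr, if_pos rfl],
    sum_const, card_univ, nsmul_one, ← Nat.card_eq_fintype_card, ← en_mul_card, Nat.cast_mul,
    mul_comm, mul_inv_cancel_right₀ (Nat.cast_ne_zero.2 Nat.card_pos.ne')]

omit hA

theorem avg_sub (p p' q q' : A → ℂ) :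
    avg (fun x => p x - p' x) (fun x => q x - q' x) =
      avg p q - avg p q' - avg p' q + avg p' q' := by
  have h : ∀ n : Subgroup.normalizer (A : Set G),
      tw n (fun x => q x - q' x) = fun x => tw n q x - tw n q' x := fun n => rfl
  simp only [avg, h, pairing_sub_left, pairing_sub_right, sum_sub_distrib]
  ring

/-- The multiplicities are integers. -/
theorem mult_spec {ψ : G → ℂ} (hψ : ψ ∈ irr G) {p : A → ℂ} (hp : p ∈ irr A) :
    pairing p (res A ψ) = mult A ψ p := by
  have h : ∃ k : ℤ, pairing p (res A ψ) = k := by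
    obtain ⟨W, -, rfl⟩ := exists_of_mem_irr hψ
    obtain ⟨V, -, rfl⟩ := exists_of_mem_irr hp
    exact exists_int_pairing V.toRepresentation (W.toRepresentation.comp A.subtype)
  rw [mult, dif_pos h]
  exact h.choose_spec

include hA

theorem Sc.mult_tw {ψ : G → ℂ} (hψ : ψ ∈ irr G) {p : A → ℂ} (hp : p ∈ irr A)
    (n : Subgroup.normalizer (A : Set G)) : mult A ψ (tw n p) = mult A ψ p := by
  have e : pairing (tw n p) (res A ψ) = pairing p (res A ψ) := by
    simp only [pairing]
    congr 1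
    let c : A ≃ A :=
      { toFun := fun x => ⟨n * x * (n : G)⁻¹, conj_mem_of_normalizer n.2 x.2⟩
        invFun := fun x => ⟨(n : G)⁻¹ * x * n, by
          simpa using conj_mem_of_normalizer (inv_mem n.2) x.2⟩
        left_inv := fun x => Subtype.ext (by group)
        right_inv := fun x => Subtype.ext (by group) }
    refine Fintype.sum_equiv c _ _ fun x => ?_
    show p _ * ψ ((x⁻¹ : A) : G) = p _ * ψ _
    congr 1
    rw [← irr_conj hψ (n : G)]
    congr 1
    show _ = ((c x)⁻¹ : A).1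
    rw [show c x = ⟨n * x * (n : G)⁻¹, conj_mem_of_normalizer n.2 x.2⟩ from rfl]
    push_cast
    group
  rw [mult_spec hψ (hA.tw_mem hp n), mult_spec hψ hp] at e
  exact_mod_cast e

omit hA

theorem mult_one {p : A → ℂ} (hp : p ∈ irr A) :
    mult A (fun _ => 1) p = if p = (fun _ => 1) then 1 else 0 := by
  have e := mult_spec (one_mem_irr (G := G)) hp
  rw [show res A (fun _ : G => (1 : ℂ)) = fun _ => 1 from rfl, pairing_irr hp one_mem_irr] at e
  split_ifs at e ⊢ <;> exact_mod_cast e.symm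

theorem mult_inv {ψ : G → ℂ} (hψ : ψ ∈ irr G) {p : A → ℂ} (hp : p ∈ irr A) :
    mult A (fun x => ψ x⁻¹) (fun x => p x⁻¹) = mult A ψ p := by
  have e : pairing (fun x => p x⁻¹) (res A fun x => ψ x⁻¹) = pairing p (res A ψ) := by
    simp only [pairing, res]
    congr 1
    exact Fintype.sum_equiv (Equiv.inv A) _ _ fun x => by simp
  rw [mult_spec (inv_mem_irr hψ) (inv_mem_irr hp), mult_spec hψ hp] at e
  exact_mod_cast e

/-- The coefficients of an induced difference. -/
theorem coeff {ψ : G → ℂ} (hψ : ψ ∈ irr G) {p p' : A → ℂ} (hp : p ∈ irr A) (hp' : p' ∈ irr A) :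
    pairing (induced A fun x => p x - p' x) ψ = ((mult A ψ p - mult A ψ p' : ℤ) : ℂ) := by
  rw [pairing_induced A _ fun g x => irr_conj hψ g x, pairing_sub_left, Int.cast_sub,
    ← mult_spec hψ hp, ← mult_spec hψ hp']
  rfl

theorem gram_cast {p p' : A → ℂ} (hp : p ∈ irr A) (hp' : p' ∈ irr A) {q q' : B → ℂ}
    (hq : q ∈ irr B) (hq' : q' ∈ irr B) :
    ((∑ ψ ∈ irr G, (mult A ψ p - mult A ψ p') * (mult B ψ q - mult B ψ q') : ℤ) : ℂ) =
      pairing (induced A fun x => p x - p' x) (induced B fun x => q x - q' x) := by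
  rw [pairing_eq_sum (induced_conj _), Int.cast_sum]
  exact sum_congr rfl fun ψ hψ => by rw [Int.cast_mul, coeff hψ hp hp', coeff hψ hq hq']

include hA

/-- **Inner products of the differences.** -/
theorem Sc.gram {p p' q q' : A → ℂ} (hp : p ∈ Lin A) (hp' : p' ∈ Lin A) (hq : q ∈ Lin A)
    (hq' : q' ∈ Lin A) :
    ∑ ψ ∈ irr G, (mult A ψ p - mult A ψ p') * (mult A ψ q - mult A ψ q') =
      ind p q - ind p q' - ind p' q + ind p' q' := by
  have h := gram_cast (mem_erase.1 hp).2 (mem_erase.1 hp').2 (mem_erase.1 hq).2 (mem_erase.1 hq').2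
  rw [hA.pairing_induced_induced _ (by
      rw [hA.irr_apply_one (mem_erase.1 hq).2, hA.irr_apply_one (mem_erase.1 hq').2, sub_self]),
    avg_sub, hA.avg_Lin hp hq, hA.avg_Lin hp hq', hA.avg_Lin hp' hq, hA.avg_Lin hp' hq'] at h
  exact_mod_cast h

theorem Sc.gram_one {p q q' : A → ℂ} (hp : p ∈ Lin A) (hq : q ∈ Lin A) (hq' : q' ∈ Lin A) :
    ∑ ψ ∈ irr G, (mult A ψ (fun _ => 1) - mult A ψ p) * (mult A ψ q - mult A ψ q') =
      ind p q' - ind p q := by
  have h := gram_cast (one_mem_irr (G := A)) (mem_erase.1 hp).2 (mem_erase.1 hq).2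
    (mem_erase.1 hq').2
  rw [hA.pairing_induced_induced _ (by
      rw [hA.irr_apply_one (mem_erase.1 hq).2, hA.irr_apply_one (mem_erase.1 hq').2, sub_self]),
    avg_sub, (hA.avg_Lin_one hq).2, (hA.avg_Lin_one hq').2, hA.avg_Lin hp hq,
    hA.avg_Lin hp hq', sub_zero, zero_sub, ← Int.cast_neg, ← Int.cast_add] at h
  rw [Int.cast_inj.1 h]
  ring

theorem Sc.gram_one_one {p : A → ℂ} (hp : p ∈ Lin A) :
    ∑ ψ ∈ irr G, (mult A ψ (fun _ => 1) - mult A ψ p) ^ 2 = en A + 1 := by
  have h := gram_cast (one_mem_irr (G := A)) (mem_erase.1 hp).2 (one_mem_irr (G := A))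
    (mem_erase.1 hp).2
  rw [hA.pairing_induced_induced _ (by rw [hA.irr_apply_one (mem_erase.1 hp).2, sub_self]),
    avg_sub, avg_one_one, (hA.avg_Lin_one hp).1, (hA.avg_Lin_one hp).2, hA.avg_Lin hp hp,
    sub_zero, sub_zero, show ind p p = 1 from if_pos (Rel.refl p)] at h
  simp only [sq]
  exact_mod_cast h

theorem Sc.gram_disjoint (hB : Sc B) (hAB : ¬ Cj B A) {p p' : A → ℂ} (hp : p ∈ irr A)
    (hp' : p' ∈ irr A) {q q' : B → ℂ} (hq : q ∈ irr B) (hq' : q' ∈ irr B) :
    ∑ ψ ∈ irr G, (mult A ψ p - mult A ψ p') * (mult B ψ q - mult B ψ q') = 0 := by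
  have h := gram_cast hp hp' hq hq'
  rw [hA.pairing_induced_disjoint hB hAB _ (by
    rw [hB.irr_apply_one hq, hB.irr_apply_one hq', sub_self])] at h
  exact_mod_cast h

theorem Sc.gram_degree {p p' : A → ℂ} (hp : p ∈ irr A) (hp' : p' ∈ irr A) :
    ∑ ψ ∈ irr G, ((mult A ψ p - mult A ψ p' : ℤ) : ℂ) * ψ 1 = 0 := by
  rw [← induced_one (φ := fun x => p x - p' x) (by
    rw [hA.irr_apply_one hp, hA.irr_apply_one hp', sub_self]),
    expansion (induced_conj _) 1]
  exact sum_congr rfl fun ψ hψ => by rw [coeff hψ hp hp']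

/-- Parseval on `A`. -/
theorem Sc.sum_sq_values {ψ : G → ℂ} (hψ : ψ ∈ irr G) :
    ψ 1 = ((∑ p ∈ irr A, mult A ψ p : ℤ) : ℂ) ∧
    ∑ x ∈ (univ : Finset G).filter (fun x => x ∈ A ∧ x ≠ 1), ψ x * ψ x⁻¹ =
      (((Nat.card A : ℤ) * ∑ p ∈ irr A, mult A ψ p ^ 2 - (∑ p ∈ irr A, mult A ψ p) ^ 2 : ℤ) : ℂ) := by
  have hcl : ∀ g x, res A ψ (g * x * g⁻¹) = res A ψ x := fun g x => by
    rw [hA.comm' g x, mul_inv_cancel_right]
  have hexp : ∀ x, res A ψ x = ∑ p ∈ irr A, (mult A ψ p : ℂ) * p x := fun x => by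
    rw [expansion hcl x]
    exact sum_congr rfl fun p hp => by rw [pairing_comm, mult_spec hψ hp]
  have h1 : ψ 1 = ((∑ p ∈ irr A, mult A ψ p : ℤ) : ℂ) := by
    rw [Int.cast_sum, show ψ 1 = res A ψ 1 from rfl, hexp 1]
    exact sum_congr rfl fun p hp => by rw [hA.irr_apply_one hp, mul_one]
  refine ⟨h1, ?_⟩
  have hn : (Nat.card A : ℂ)⁻¹ * ∑ x : A, res A ψ x * res A ψ x⁻¹ =
      ((∑ p ∈ irr A, mult A ψ p ^ 2 : ℤ) : ℂ) := by
    rw [show (Nat.card A : ℂ)⁻¹ * ∑ x : A, res A ψ x * res A ψ x⁻¹ =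
      pairing (res A ψ) (res A ψ) from rfl, pairing_eq_sum hcl, Int.cast_sum]
    exact sum_congr rfl fun p hp => by
      rw [pairing_comm, mult_spec hψ hp, Int.cast_pow, sq]
  rw [inv_mul_eq_iff_eq_mul₀ (Nat.cast_ne_zero.2 Nat.card_pos.ne')] at hn
  have hsplit : ∑ x : A, res A ψ x * res A ψ x⁻¹ = ψ 1 * ψ 1 +
      ∑ x ∈ (univ : Finset G).filter (fun x => x ∈ A ∧ x ≠ 1), ψ x * ψ x⁻¹ := by
    rw [show ∑ x : A, res A ψ x * res A ψ x⁻¹ = ∑ x : A, ψ (x : G) * ψ (x : G)⁻¹ from rfl,
      ← sum_subtype ((univ : Finset G).filter (· ∈ A)) (by simp) fun x => ψ x * ψ x⁻¹,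
      ← add_sum_erase _ _ (show (1 : G) ∈ (univ : Finset G).filter (· ∈ A) by
        simp [A.one_mem]), inv_one]
    congr 1
    refine sum_congr ?_ fun _ _ => rfl
    ext x
    simp [and_comm]
  rw [hn, h1] at hsplit
  push_cast at hsplit ⊢
  linear_combination -hsplit

end FA.SuzukiCA

end
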