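import Fermat.Agent.SuzukiCA.Exceptional

/-!
# No simple CA-group of odd order

At the smallest self-centralising subgroup the norm of an exceptional character and the column
bound, joined by the parity relation, leave room only for a character of degree `1`.
-/

set_option autoImplicit false
set_option linter.style.haveILetI false

noncomputable section

open Finset FA.FrobeniusGroups FA.CharacterTheory
open scoped Classical

namespace FA.SuzukiCA

variable {G : Type*} [Group G] [Fintype G]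

/-- A nontrivial character of degree `1` forces a normal subgroup or commutativity. -/
theorem exists_normal_of_degree_one {χ : G → ℂ} (hχ : χ ∈ irr G) (hne : χ ≠ fun _ => 1)
    (h1 : χ 1 = 1) (hnc : ∃ a b : G, a * b ≠ b * a) :
    ∃ H : Subgroup G, H.Normal ∧ H ≠ ⊥ ∧ H ≠ ⊤ := by
  obtain ⟨W, hW, rfl⟩ := exists_of_mem_irr hχ
  have hd : Module.finrank ℂ W.toSubmodule = 1 := by
    rw [Representation.char_one] at h1
    exact_mod_cast h1
  set b := Module.finBasisOfFinrankEq ℂ W.toSubmodule hd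
  have hcomm : ∀ S T : Module.End ℂ W.toSubmodule, S * T = T * S := fun S T => by
    refine (LinearMap.toMatrix b b).injective ?_
    rw [LinearMap.toMatrix_mul, LinearMap.toMatrix_mul]
    ext i j
    simp [Matrix.mul_apply, Fin.fin_one_eq_zero, mul_comm]
  refine ⟨MonoidHom.ker W.toRepresentation, MonoidHom.normal_ker _, fun h => ?_, fun h => ?_⟩
  · obtain ⟨x, y, hxy⟩ := hnc
    exact hxy ((MonoidHom.ker_eq_bot_iff _).1 h (by rw [map_mul, map_mul, hcomm]))
  · refine hne (funext fun x => ?_)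
    have hx : W.toRepresentation x = 1 := MonoidHom.mem_ker.1 (h ▸ Subgroup.mem_top x)
    rw [Representation.character, hx, LinearMap.trace_one, hd, Nat.cast_one]

/-- The number of nontrivial elements of a subgroup. -/
theorem card_filter_ne_one (B : Subgroup G) :
    (((univ : Finset G).filter fun x => x ∈ B ∧ x ≠ 1).card : ℤ) = (Nat.card B : ℤ) - 1 := by
  have hset : ((univ : Finset G).filter fun x => x ∈ B ∧ x ≠ 1) =
      ((univ : Finset G).filter (· ∈ B)).erase 1 := by ext x; simp [and_comm]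
  have h1 : (1 : G) ∈ (univ : Finset G).filter (· ∈ B) := by simp [B.one_mem]
  have hc : ((univ : Finset G).filter (· ∈ B)).card = Nat.card B := by
    rw [Nat.card_eq_fintype_card, Fintype.card_subtype]
  rw [hset, card_erase_of_mem h1, hc, Nat.cast_sub Nat.card_pos, Nat.cast_one]

/-- **Suzuki**: a non-commutative CA-group of odd order is not simple. -/
theorem exists_normal (hodd : Odd (Nat.card G)) (hCA : IsCA G)
    (hnc : ∃ a b : G, a * b ≠ b * a) : ∃ H : Subgroup G, H.Normal ∧ H ≠ ⊥ ∧ H ≠ ⊤ := by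
  obtain ⟨R, hR, hcov⟩ := hCA.exists_reps
  obtain ⟨y, hy⟩ : ∃ y : G, y ≠ 1 := by
    obtain ⟨a, b, hab⟩ := hnc
    exact ⟨a, fun h => hab (by rw [h, one_mul, mul_one])⟩
  obtain ⟨B₀, ⟨hB₀, -⟩, -⟩ := hcov y hy
  obtain ⟨A, hAR, hmin⟩ := exists_min_image R (fun B => Nat.card B) ⟨B₀, hB₀⟩
  have hA := hR A hAR
  have hncj : ∀ B ∈ R, ∀ B' ∈ R, B ≠ B' → ¬ Cj B' B := fun B hB B' hB' hne ⟨c, hc⟩ => by
    obtain ⟨x, hx, hx1⟩ : ∃ x ∈ B, x ≠ 1 := by
      by_contra hall
      push Not at hall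
      exact (hR B hB).ne_bot ((Subgroup.eq_bot_iff_forall B).2 hall)
    exact hne ((hcov x hx1).unique ⟨hB, 1, by simpa using hx⟩ ⟨hB', c, (hc x).1 hx⟩)
  let Fs : ∀ B : R, Fam (B : Subgroup G) := fun B => ((hR B B.2).exists_fam hodd).some
  set FA' : Fam A := Fs ⟨A, hAR⟩
  obtain ⟨p, hp, -⟩ := hA.exists_not_rel hodd
  set χ := FA'.f p
  have hχ : χ ∈ irr G := FA'.mem p hp
  have hχA : χ ∈ FA'.fam := mem_image_of_mem _ hp
  obtain ⟨x, hx0, hx⟩ := irr_one hχ
  suffices hx1 : (x : ℤ) ^ 2 ≤ 1 by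
    refine exists_normal_of_degree_one hχ (FA'.ne_one p hp) ?_ hnc
    have h1 : x = 1 := by
      have : (x : ℤ) ≤ 1 := by nlinarith
      omega
    rw [hx, h1, Nat.cast_one]
  -- the contributions of the classes
  set idx : Subgroup G → ℤ := fun B => (Subgroup.normalizer (B : Set G)).index with hidx
  have hprod : ∀ B : Subgroup G, idx B * ((en B : ℤ) * Nat.card B) = Nat.card G := fun B => by
    simp only [hidx]
    exact_mod_cast index_mul_en_mul_card (A := B)
  choose! T hT using fun (B : Subgroup G) (hB : B ∈ R) =>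
    show ∃ T : ℤ, ∑ z ∈ (univ : Finset G).filter (fun z => z ∈ B ∧ z ≠ 1), χ z * χ z⁻¹ = (T : ℂ)
      from ⟨_, ((hR B hB).sum_sq_values hχ).2⟩
  have hnorm : (Nat.card G : ℤ) = (x : ℤ) ^ 2 + ∑ B ∈ R, idx B * T B := by
    have h1 := pairing_irr hχ hχ
    rw [if_pos rfl, pairing, inv_mul_eq_iff_eq_mul₀ (Nat.cast_ne_zero.2 Nat.card_pos.ne'), mul_one,
      ← add_sum_erase _ _ (mem_univ (1 : G)), inv_one, hx,
      sum_ne_one hR hcov (fun z => χ z * χ z⁻¹) (fun g z => by
        rw [show (g * z * g⁻¹)⁻¹ = g * z⁻¹ * g⁻¹ by group, irr_conj hχ, irr_conj hχ]),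
      sum_congr rfl fun B hB => by rw [hT B hB]] at h1
    have h2 : (((x : ℤ) ^ 2 + ∑ B ∈ R, idx B * T B : ℤ) : ℂ) = ((Nat.card G : ℤ) : ℂ) := by
      push_cast
      rw [← h1, hidx]
      push_cast
      ring
    exact (Int.cast_inj.1 h2).symm
  have hclasses : (Nat.card G : ℤ) - 1 = ∑ B ∈ R, idx B * ((Nat.card B : ℤ) - 1) := by
    have h1 := sum_ne_one hR hcov (fun _ => (1 : ℂ)) fun _ _ => rfl
    have hpre : ((univ : Finset G).erase 1).card + 1 = Nat.card G := by
      rw [card_erase_add_one (mem_univ _), card_univ, Nat.card_eq_fintype_card]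
    have h2 : ((((univ : Finset G).erase 1).card : ℤ) : ℂ) =
        ((∑ B ∈ R, idx B * (((univ : Finset G).filter fun z => z ∈ B ∧ z ≠ 1).card : ℤ) : ℤ) : ℂ) := by
      simp only [sum_const, nsmul_one] at h1
      push_cast
      rw [h1, hidx]
      push_cast
      rfl
    rw [← hpre, Nat.cast_add, Nat.cast_one, add_sub_cancel_right, Int.cast_inj.1 h2]
    exact sum_congr rfl fun B _ => by rw [card_filter_ne_one]
  -- the other classes
  have hTA : (en A : ℤ) * ((Nat.card A : ℤ) - en A) ≤ T A := by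
    obtain ⟨t, ht, he⟩ := FA'.values_of_mem hA hodd hχ hχA
    rw [hT A hAR] at he
    rwa [Int.cast_inj.1 he]
  set O := (R.erase A).attach
  have hO : ∀ B : {B // B ∈ R.erase A}, (B : Subgroup G) ∈ R ∧ ¬ Cj (B : Subgroup G) A :=
    fun B => ⟨(mem_erase.1 B.2).2, hncj A hAR B (mem_erase.1 B.2).2 (mem_erase.1 B.2).1.symm⟩
  let F : ∀ B : {B // B ∈ R.erase A}, Fam (B : Subgroup G) := fun B => Fs ⟨B, (hO B).1⟩
  choose q hq _hq' using fun B : {B // B ∈ R.erase A} => (hR B (hO B).1).exists_not_rel hodd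
  have hcol : ∑ B ∈ O, ((F B).fam.card : ℤ) * FA'.dd ((F B).f (q B)) ^ 2 + 1 ≤ en A := by
    have hd : Set.PairwiseDisjoint (↑O) fun B => (F B).fam := fun B _ B' _ hne =>
      (F B).disjoint_fam (hR B (hO B).1) (F B') (hR B' (hO B').1)
        (hncj B (hO B).1 B' (hO B').1 fun e => hne (Subtype.ext e)) hodd
    have h := FA'.sum_dd_sq_le hA hodd (S := O.biUnion fun B => (F B).fam)
      (biUnion_subset.2 fun B _ => (F B).fam_subset)
      (fun h => by obtain ⟨B, -, hB⟩ := mem_biUnion.1 h; exact (F B).one_notMem hB)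
      (disjoint_biUnion_left _ _ _ |>.2 fun B _ =>
        (FA'.disjoint_fam hA (F B) (hR B (hO B).1) (hO B).2 hodd).symm)
    rw [sum_biUnion hd] at h
    refine le_trans (le_of_eq ?_) h
    congr 1
    refine sum_congr rfl fun B _ => ?_
    rw [sum_congr rfl fun ψ hψ => show FA'.dd ψ ^ 2 = FA'.dd ((F B).f (q B)) ^ 2 by
      obtain ⟨r, hr, rfl⟩ := mem_image.1 hψ
      rw [FA'.dd_other hA (F B) (hR B (hO B).1) (hO B).2 hodd hr (hq B)], sum_const, nsmul_eq_mul]
  have hterm : ∀ B ∈ O, (Nat.card A : ℤ) * (idx B * ((Nat.card B.1 : ℤ) - 1)) ≤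
      (Nat.card G : ℤ) * (((F B).fam.card : ℤ) * FA'.dd ((F B).f (q B)) ^ 2) +
        (Nat.card A : ℤ) * (idx B * T B) := by
    intro B _
    have hB := hR B (hO B).1
    have hw : (Nat.card B.1 : ℤ) - 1 = (F B).fam.card * en B.1 := by
      rw [← (F B).card_fam_mul hB]; push_cast; ring
    have hnot : χ ∉ (F B).fam := fun h =>
      disjoint_left.1 (FA'.disjoint_fam hA (F B) hB (hO B).2 hodd) hχA h
    have hTB : T B = ((Nat.card B.1 : ℤ) - 1) * (F B).dd χ ^ 2 := by
      have := (F B).values_of_notMem hB hχ hnot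
      rw [hT B (hO B).1] at this
      exact Int.cast_inj.1 this
    have hi : 0 ≤ idx B := Int.natCast_nonneg _
    have hr : 0 ≤ idx B * ((F B).fam.card * en B.1 : ℤ) :=
      mul_nonneg hi (mul_nonneg (Int.natCast_nonneg _) (Int.natCast_nonneg _))
    have ha : 0 ≤ (Nat.card A : ℤ) := Int.natCast_nonneg _
    rw [hTB, hw]
    rcases FA'.dd_ne_zero hA (F B) hB (hO B).2 hodd hp (hq B) with h | h
    · have h1 : 1 ≤ FA'.dd ((F B).f (q B)) ^ 2 := Int.add_one_le_iff.2 (pow_two_pos_of_ne_zero h)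
      have h2 : (Nat.card A : ℤ) ≤ Nat.card B.1 := by exact_mod_cast hmin B (hO B).1
      calc (Nat.card A : ℤ) * (idx B * ((F B).fam.card * en B.1))
          ≤ (Nat.card B.1 : ℤ) * (idx B * ((F B).fam.card * en B.1)) :=
            mul_le_mul_of_nonneg_right h2 hr
        _ = (Nat.card G : ℤ) * ((F B).fam.card * 1) := by rw [← hprod B.1]; ring
        _ ≤ (Nat.card G : ℤ) * ((F B).fam.card * FA'.dd ((F B).f (q B)) ^ 2) := by gcongr
        _ ≤ _ := le_add_of_nonneg_right (mul_nonneg ha (mul_nonneg hi (mul_nonneg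
            (mul_nonneg (Int.natCast_nonneg _) (Int.natCast_nonneg _)) (sq_nonneg _))))
    · have h1 : 1 ≤ (F B).dd χ ^ 2 := Int.add_one_le_iff.2 (pow_two_pos_of_ne_zero h)
      calc (Nat.card A : ℤ) * (idx B * ((F B).fam.card * en B.1))
          = (Nat.card A : ℤ) * (idx B * ((F B).fam.card * en B.1 * 1)) := by ring
        _ ≤ (Nat.card A : ℤ) * (idx B * ((F B).fam.card * en B.1 * (F B).dd χ ^ 2)) := by gcongr
        _ ≤ _ := le_add_of_nonneg_left (mul_nonneg (Int.natCast_nonneg _)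
            (mul_nonneg (Int.natCast_nonneg _) (sq_nonneg _)))
  have hsum := sum_le_sum hterm
  rw [← mul_sum, sum_add_distrib, ← mul_sum, ← mul_sum,
    sum_attach (R.erase A) fun B => idx B * ((Nat.card B : ℤ) - 1),
    sum_attach (R.erase A) fun B => idx B * T B] at hsum
  rw [← add_sum_erase _ _ hAR] at hnorm hclasses
  have hpA := hprod A
  have hwA : (Nat.card A : ℤ) = FA'.fam.card * en A + 1 := by
    exact_mod_cast (FA'.card_fam_mul hA).symm
  have hw2 : (2 : ℤ) ≤ FA'.fam.card := by exact_mod_cast FA'.two_le_card hA hodd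
  have he1 : (1 : ℤ) ≤ en A := by
    by_contra hlt
    have h0 : (Nat.card G : ℤ) = 0 := by
      rw [← hpA, show (en A : ℤ) = 0 by omega]
      ring
    exact (Nat.card_pos (α := G)).ne' (by exact_mod_cast h0)
  have hg : (1 : ℤ) ≤ Nat.card G := by exact_mod_cast Nat.card_pos
  have hiA : 0 ≤ idx A := Int.natCast_nonneg _
  set g := (Nat.card G : ℤ)
  set a := (Nat.card A : ℤ)
  have hcol' := mul_le_mul_of_nonneg_left hcol (by linarith : (0 : ℤ) ≤ g)
  have hTA' := mul_le_mul_of_nonneg_left hTA (mul_nonneg (Int.natCast_nonneg _ : (0 : ℤ) ≤ a) hiA)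
  have hroom := mul_le_mul_of_nonneg_left (show (FA'.fam.card : ℤ) + 2 * en A - 1 ≤ a by
      nlinarith [mul_nonneg (sub_nonneg.2 hw2) (sub_nonneg.2 he1)])
    (by linarith : (0 : ℤ) ≤ g)
  have e1 : a * (idx A * (a - 1)) = g * FA'.fam.card := by rw [← hpA, hwA]; ring
  have e2 : a * idx A * ((en A : ℤ) * (a - en A)) = g * (a - en A) := by rw [← hpA]; ring
  have h1 := congrArg (a * ·) hnorm
  have h2 := congrArg (a * ·) hclasses
  have hfinal : a * (x : ℤ) ^ 2 ≤ a * 1 := by
    linarith [e1, e2, hsum, hcol', hTA', hroom, h1, h2]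
  exact le_of_mul_le_mul_left hfinal (by nlinarith)

end FA.SuzukiCA

end
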