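import Fermat.Agent.SuzukiCA.Induced

/-!
# The exceptional characters of a self-centralising subgroup

The differences `Ind (λ - μ)` have norm `2` and value `0` at `1`, and any two of them share one
constituent, so the restrictions of the irreducible characters are constant on the nontrivial
linear characters, up to the exceptional ones, one for each orbit of the normaliser.
-/

set_option autoImplicit false
set_option linter.style.haveILetI false

noncomputable section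

open Finset FA.FrobeniusGroups FA.CharacterTheory
open scoped Classical

namespace FA.SuzukiCA

section Comb

variable {ι κ : Type*}

/-- The difference of two indicators. -/
def pm (a b i : ι) : ℤ := (if i = a then 1 else 0) - (if i = b then 1 else 0)

theorem sum_pm_mul {s : Finset ι} {a b : ι} (ha : a ∈ s) (hb : b ∈ s) (F : ι → ℤ) :
    ∑ i ∈ s, pm a b i * F i = F a - F b := by
  simp only [pm, sub_mul, ite_mul, one_mul, zero_mul, sum_sub_distrib]
  rw [sum_ite_eq' s a, sum_ite_eq' s b, if_pos ha, if_pos hb]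

/-- A vector of norm `2` orthogonal to a positive vector. -/
theorem exists_pm {s : Finset ι} {d : ι → ℕ} (hd : ∀ i ∈ s, d i ≠ 0) {u : ι → ℤ}
    (h2 : ∑ i ∈ s, u i * u i = 2) (h0 : ∑ i ∈ s, u i * (d i : ℤ) = 0) :
    ∃ a ∈ s, ∃ b ∈ s, a ≠ b ∧ ∀ i ∈ s, u i = pm a b i := by
  set T := s.filter fun i => u i ≠ 0 with hT
  have hone : ∀ i ∈ T, u i = 1 ∨ u i = -1 := fun i hi => by
    obtain ⟨his, hne⟩ := mem_filter.1 hi
    have h1 : u i * u i ≤ 2 := h2 ▸ single_le_sum (fun j _ => mul_self_nonneg (u j)) his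
    have : -1 ≤ u i ∧ u i ≤ 1 := ⟨by nlinarith, by nlinarith⟩
    omega
  have hcard : T.card = 2 := by
    have h1 : ∑ i ∈ T, u i * u i = 2 := by
      rw [← h2, hT]
      exact sum_filter_of_ne fun i _ hne h0 => hne (by rw [h0, mul_zero])
    rw [sum_congr rfl fun i hi => show u i * u i = 1 by
      rcases hone i hi with h | h <;> rw [h] <;> norm_num, sum_const, nsmul_one] at h1
    exact_mod_cast h1
  obtain ⟨a, b, hab, hTab⟩ := card_eq_two.1 hcard
  have ha : a ∈ T := by simp [hTab]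
  have hb : b ∈ T := by simp [hTab]
  have hsum : u a * (d a : ℤ) + u b * (d b : ℤ) = 0 := by
    rw [← h0, ← sum_pair (f := fun i => u i * (d i : ℤ)) hab, ← hTab, hT]
    exact sum_filter_of_ne fun i _ hne h0 => hne (by rw [h0, zero_mul])
  have hda := hd a (mem_filter.1 ha).1
  have hdb := hd b (mem_filter.1 hb).1
  have key : ∀ a b : ι, a ≠ b → T = {a, b} → u a = 1 → u b = -1 →
      ∀ i ∈ s, u i = pm a b i := fun a b hab hTab ha1 hb1 i hi => by
    rcases eq_or_ne i a with rfl | hia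
    · simp [pm, ha1, hab]
    rcases eq_or_ne i b with rfl | hib
    · simp [pm, hb1, hia]
    have : i ∉ T := by simp [hTab, hia, hib]
    simpa [pm, hia, hib, hT, hi] using this
  rcases hone a ha with h1 | h1 <;> rcases hone b hb with h1' | h1'
  · rw [h1, h1'] at hsum; omega
  · exact ⟨a, (mem_filter.1 ha).1, b, (mem_filter.1 hb).1, hab, key a b hab hTab h1 h1'⟩
  · exact ⟨b, (mem_filter.1 hb).1, a, (mem_filter.1 ha).1, hab.symm,
      key b a hab.symm (by rw [hTab, pair_comm]) h1' h1⟩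
  · rw [h1, h1'] at hsum; omega

theorem share {a b c d : ι} (hab : a ≠ b) (hcd : c ≠ d) :
    (pm c d a - pm c d b = 2 → a = c ∧ b = d) ∧
      (pm c d a - pm c d b = 1 → (a = c ∧ b ≠ d) ∨ (a ≠ c ∧ b = d)) := by
  unfold pm
  split_ifs <;> refine ⟨fun h => ?_, fun h => ?_⟩ <;> grind

/-- **Vectors meeting pairwise in one place.** -/
theorem exists_flower {P : Finset κ} (hP : P.Nonempty) {s : Finset ι} {E : κ → κ → Prop}
    (a b : κ → ι) (ha : ∀ j ∈ P, a j ∈ s) (hb : ∀ j ∈ P, b j ∈ s) (hab : ∀ j ∈ P, a j ≠ b j)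
    (h : ∀ j ∈ P, ∀ k ∈ P, ∑ i ∈ s, pm (a j) (b j) i * pm (a k) (b k) i =
      (if E j k then 1 else 0) + 1) :
    ∃ (ε : ℤ) (c : ι) (f : κ → ι), (ε = 1 ∨ ε = -1) ∧ c ∈ s ∧
      (∀ j ∈ P, f j ∈ s ∧ f j ≠ c ∧ ∀ i, pm (a j) (b j) i = ε * pm (f j) c i) ∧
      ∀ j ∈ P, ∀ k ∈ P, (f j = f k ↔ E j k) := by
  have hin : ∀ j ∈ P, ∀ k ∈ P,
      (E j k → a j = a k ∧ b j = b k) ∧
      (¬ E j k → (a j = a k ∧ b j ≠ b k) ∨ (a j ≠ a k ∧ b j = b k)) := fun j hj k hk => by
    have hjk := h j hj k hk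
    rw [sum_pm_mul (ha j hj) (hb j hj)] at hjk
    exact ⟨fun he => (share (hab j hj) (hab k hk)).1 (by rw [hjk, if_pos he]; rfl),
      fun he => (share (hab j hj) (hab k hk)).2 (by rw [hjk, if_neg he]; rfl)⟩
  have iffE : ∀ j ∈ P, ∀ k ∈ P, ((a j = a k ∧ b j = b k) ↔ E j k) := fun j hj k hk =>
    ⟨fun he => by_contra fun hn => by
      rcases (hin j hj k hk).2 hn with h1 | h1
      · exact h1.2 he.2
      · exact h1.1 he.1, (hin j hj k hk).1⟩
  suffices hall : (∀ j ∈ P, ∀ k ∈ P, b j = b k) ∨ ∀ j ∈ P, ∀ k ∈ P, a j = a k by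
    obtain ⟨j₀, hj₀⟩ := hP
    rcases hall with hall | hall
    · refine ⟨1, b j₀, a, Or.inl rfl, hb _ hj₀, fun j hj => ⟨ha j hj, ?_, fun i => ?_⟩,
        fun j hj k hk => ?_⟩
      · exact hall j₀ hj₀ j hj ▸ hab j hj
      · rw [one_mul, hall j₀ hj₀ j hj]
      · exact ⟨fun he => (iffE j hj k hk).1 ⟨he, hall j hj k hk⟩,
          fun he => ((iffE j hj k hk).2 he).1⟩
    · refine ⟨-1, a j₀, b, Or.inr rfl, ha _ hj₀, fun j hj => ⟨hb j hj, ?_, fun i => ?_⟩,
        fun j hj k hk => ?_⟩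
      · exact hall j₀ hj₀ j hj ▸ (hab j hj).symm
      · rw [hall j₀ hj₀ j hj]; unfold pm; ring
      · exact ⟨fun he => (iffE j hj k hk).1 ⟨hall j hj k hk, he⟩,
          fun he => ((iffE j hj k hk).2 he).2⟩
  by_cases hsplit : ∀ j ∈ P, ∀ k ∈ P, E j k
  · exact Or.inl fun j hj k hk => ((iffE j hj k hk).2 (hsplit j hj k hk)).2
  push Not at hsplit
  obtain ⟨j, hj, k, hk, hjk⟩ := hsplit
  rcases (hin j hj k hk).2 hjk with h1 | h1
  · refine Or.inr fun l hl m hm => ?_
    suffices key : ∀ l ∈ P, a l = a j by rw [key l hl, key m hm]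
    intro l hl
    by_cases e1 : E l j
    · exact ((iffE l hl j hj).2 e1).1
    by_cases e2 : E l k
    · exact ((iffE l hl k hk).2 e2).1.trans h1.1.symm
    rcases (hin l hl j hj).2 e1 with h2 | h2 <;> rcases (hin l hl k hk).2 e2 with h3 | h3
    · exact h2.1
    · exact h2.1
    · exact h3.1.trans h1.1.symm
    · exact absurd (h2.2.symm.trans h3.2) h1.2
  · refine Or.inl fun l hl m hm => ?_
    suffices key : ∀ l ∈ P, b l = b j by rw [key l hl, key m hm]
    intro l hl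
    by_cases e1 : E l j
    · exact ((iffE l hl j hj).2 e1).2
    by_cases e2 : E l k
    · exact ((iffE l hl k hk).2 e2).2.trans h1.2.symm
    rcases (hin l hl j hj).2 e1 with h2 | h2 <;> rcases (hin l hl k hk).2 e2 with h3 | h3
    · exact absurd (h2.1.symm.trans h3.1) h1.1
    · exact h3.2.trans h1.2.symm
    · exact h2.2
    · exact h2.2

end Comb

variable {G : Type*} [Group G] [Fintype G] {A B : Subgroup G}

/-- **The exceptional characters** of `A`. -/
structure Fam (A : Subgroup G) where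
  /-- the sign -/
  eps : ℤ
  /-- the exceptional character of a linear character -/
  f : (A → ℂ) → G → ℂ
  /-- the common multiplicity -/
  m : (G → ℂ) → ℤ
  eps_eq : eps = 1 ∨ eps = -1
  mem : ∀ p ∈ Lin A, f p ∈ irr G
  ne_one : ∀ p ∈ Lin A, f p ≠ fun _ => 1
  fibre : ∀ p ∈ Lin A, ∀ q ∈ Lin A, f p = f q ↔ Rel p q
  mult_eq : ∀ ψ ∈ irr G, ∀ p ∈ Lin A, mult A ψ p = m ψ + if ψ = f p then eps else 0

/-- An odd index and an even number of linear characters: two orbits at least. -/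
theorem Sc.exists_not_rel (hA : Sc A) (hodd : Odd (Nat.card G)) :
    ∃ p₀ ∈ Lin A, ∃ p ∈ Lin A, ¬ Rel p₀ p := by
  have ha : Odd (Nat.card A) := hodd.of_dvd_nat A.card_subgroup_dvd_card
  have he : Odd (en A) := hodd.of_dvd_nat
    (Dvd.intro_left _ (by rw [← index_mul_en_mul_card (A := A)]; ring :
      (Subgroup.normalizer (A : Set G)).index * Nat.card A * en A = Nat.card G))
  have ha1 : 1 < Nat.card A := (Subgroup.one_lt_card_iff_ne_bot A).2 hA.ne_bot
  have hcard := hA.card_Lin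
  obtain ⟨p₀, hp₀⟩ : (Lin A).Nonempty := card_pos.1 (by omega)
  refine ⟨p₀, hp₀, ?_⟩
  by_contra hall
  push Not at hall
  have h := hA.card_orbit hp₀
  rw [filter_true_of_mem hall] at h
  obtain ⟨i, hi⟩ := ha
  obtain ⟨j, hj⟩ := he
  omega

theorem Sc.exists_fam (hA : Sc A) (hodd : Odd (Nat.card G)) : Nonempty (Fam A) := by
  obtain ⟨p₀, hp₀, p₁, hp₁, hp₀₁⟩ := hA.exists_not_rel hodd
  set P := (Lin A).filter fun p => ¬ Rel p₀ p
  choose! d hd0 hd using fun (χ : G → ℂ) (hχ : χ ∈ irr G) => irr_one hχ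
  set u : (A → ℂ) → (G → ℂ) → ℤ := fun p ψ => mult A ψ p - mult A ψ p₀
  have hu : ∀ p ∈ P, ∀ q ∈ P,
      ∑ ψ ∈ irr G, u p ψ * u q ψ = (if Rel p q then 1 else 0) + 1 := fun p hp q hq => by
    obtain ⟨hpL, hpn⟩ := mem_filter.1 hp
    obtain ⟨hqL, hqn⟩ := mem_filter.1 hq
    rw [hA.gram hpL hp₀ hqL hp₀, ind, ind, ind, ind, if_neg (fun e : Rel p p₀ => hpn e.symm), if_neg hqn,
      if_pos (Rel.refl p₀), sub_zero, sub_zero]
  choose! a ha b hb hab hu' using fun p (hp : p ∈ P) =>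
    exists_pm (s := irr G) (d := d) hd0 (u := u p) (by rw [hu p hp p hp, if_pos (Rel.refl p)]; rfl)
      (by
        have h := hA.gram_degree (mem_erase.1 (mem_filter.1 hp).1).2 (mem_erase.1 hp₀).2
        rw [sum_congr rfl fun ψ hψ => by rw [hd ψ hψ]] at h
        exact_mod_cast h)
  obtain ⟨ε, c, f, hε, hc, hf, hff⟩ := exists_flower (κ := A → ℂ) (P := P)
    ⟨p₁, mem_filter.2 ⟨hp₁, hp₀₁⟩⟩ (E := Rel) a b ha hb hab fun j hj k hk => by
      rw [← hu j hj k hk]
      exact sum_congr rfl fun i hi => by rw [hu' j hj i hi, hu' k hk i hi]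
  have huf : ∀ p ∈ P, ∀ ψ ∈ irr G, mult A ψ p = mult A ψ p₀ + ε * pm (f p) c ψ :=
    fun p hp ψ hψ => by
      rw [← (hf p hp).2.2 ψ, ← hu' p hp ψ hψ]
      simp only [u]
      ring
  have hm1 : ∀ p ∈ Lin A, mult A (fun _ => (1 : ℂ)) p = 0 := fun p hp => by
    rw [mult_one (mem_erase.1 hp).2, if_neg (mem_erase.1 hp).1]
  refine ⟨{
    eps := ε
    f := fun p => if Rel p₀ p then c else f p
    m := fun ψ => mult A ψ p₀ - if ψ = c then ε else 0
    eps_eq := hε
    mem := fun p hp => ?_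
    ne_one := fun p hp => ?_
    fibre := fun p hp q hq => ?_
    mult_eq := fun ψ hψ p hp => ?_ }⟩
  · split_ifs with h
    · exact hc
    · exact (hf p (mem_filter.2 ⟨hp, h⟩)).1
  · have key : ∀ q ∈ P, f q ≠ (fun _ => 1) ∧ c ≠ fun _ => 1 := fun q hq => by
      have h := huf q hq _ one_mem_irr
      rw [hm1 q (mem_filter.1 hq).1, hm1 p₀ hp₀, zero_add, eq_comm, mul_eq_zero,
        or_iff_right (by rcases hε with h' | h' <;> rw [h'] <;> norm_num)] at h
      have hne := (hf q hq).2.1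
      unfold pm at h
      constructor
      · intro e
        rw [if_pos e.symm, if_neg fun e' => hne (e.trans e')] at h
        exact one_ne_zero (h.trans rfl : (1 : ℤ) = 0)
      · intro e
        rw [if_neg fun e' => hne (e'.symm.trans e.symm), if_pos e.symm] at h
        norm_num at h
    split_ifs with h
    · exact (key p₁ (mem_filter.2 ⟨hp₁, hp₀₁⟩)).2
    · exact (key p (mem_filter.2 ⟨hp, h⟩)).1
  · split_ifs with h h' h'
    · exact iff_of_true rfl (h.symm.trans h')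
    · exact iff_of_false (hf q (mem_filter.2 ⟨hq, h'⟩)).2.1.symm fun e => h' (h.trans e)
    · exact iff_of_false (hf p (mem_filter.2 ⟨hp, h⟩)).2.1 fun e => h (h'.trans e.symm)
    · exact hff p (mem_filter.2 ⟨hp, h⟩) q (mem_filter.2 ⟨hq, h'⟩)
  · by_cases h : Rel p₀ p
    · rw [if_pos h]
      obtain ⟨n, rfl⟩ := h
      rw [hA.mult_tw hψ (mem_erase.1 hp₀).2]
      ring
    · rw [if_neg h, huf p (mem_filter.2 ⟨hp, h⟩) ψ hψ]
      unfold pm
      split_ifs <;> ring

namespace Fam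

variable (F : Fam A) (hA : Sc A)

/-- The exceptional family. -/
def fam : Finset (G → ℂ) := (Lin A).image F.f

/-- The value on the nontrivial elements of `A`, outside the family. -/
def dd (ψ : G → ℂ) : ℤ := mult A ψ (fun _ => 1) - F.m ψ

theorem eps_sq : F.eps * F.eps = 1 := by
  rcases F.eps_eq with h | h <;> rw [h] <;> norm_num

theorem fam_subset : F.fam ⊆ irr G := image_subset_iff.2 F.mem

theorem one_notMem : (fun _ => 1) ∉ F.fam := fun h => by
  obtain ⟨p, hp, he⟩ := mem_image.1 h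
  exact F.ne_one p hp he

include hA

theorem card_fibre {p : A → ℂ} (hp : p ∈ Lin A) :
    ((Lin A).filter fun q => F.f p = F.f q).card = en A := by
  rw [filter_congr fun q hq => F.fibre p hp q hq]
  exact hA.card_orbit hp

theorem card_fam_mul : F.fam.card * en A + 1 = Nat.card A := by
  rw [← hA.card_Lin, card_eq_sum_card_image F.f (Lin A), sum_congr rfl fun χ hχ => ?_, sum_const,
    smul_eq_mul]
  · rfl
  · obtain ⟨p, hp, rfl⟩ := mem_image.1 hχ
    rw [filter_congr fun q _ => eq_comm]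
    exact F.card_fibre hA hp

theorem two_le_card (hodd : Odd (Nat.card G)) : 2 ≤ F.fam.card := by
  obtain ⟨p, hp, q, hq, h⟩ := hA.exists_not_rel hodd
  exact one_lt_card.2 ⟨F.f p, mem_image_of_mem _ hp, F.f q, mem_image_of_mem _ hq,
    fun e => h ((F.fibre p hp q hq).1 e)⟩

theorem sum_Lin {ψ : G → ℂ} (hψ : ψ ∈ irr G) (g : ℤ → ℤ) :
    ∑ p ∈ Lin A, g (mult A ψ p) = ((Nat.card A : ℤ) - 1) * g (F.m ψ) +
      (if ψ ∈ F.fam then (en A : ℤ) else 0) * (g (F.m ψ + F.eps) - g (F.m ψ)) := by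
  have hterm : ∀ p ∈ Lin A, g (mult A ψ p) =
      g (F.m ψ) + if ψ = F.f p then g (F.m ψ + F.eps) - g (F.m ψ) else 0 := fun p hp => by
    rw [F.mult_eq ψ hψ p hp]
    split_ifs <;> simp
  rw [sum_congr rfl hterm, sum_add_distrib, sum_const, nsmul_eq_mul, ← sum_filter, sum_const,
    nsmul_eq_mul]
  congr 1
  · rw [show (Nat.card A : ℤ) = ((Lin A).card : ℤ) + 1 by exact_mod_cast hA.card_Lin.symm]
    ring
  · congr 1
    split_ifs with h
    · obtain ⟨p, hp, rfl⟩ := mem_image.1 h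
      exact_mod_cast congrArg (Nat.cast (R := ℤ)) (F.card_fibre hA hp)
    · rw [filter_eq_empty_iff.2 fun p hp e => h (mem_image.2 ⟨p, hp, e.symm⟩)]
      rfl

theorem dd_one : F.dd (fun _ => 1) = 1 := by
  obtain ⟨p, hp⟩ : (Lin A).Nonempty := card_pos.1 (by
    have := hA.card_Lin
    have := (Subgroup.one_lt_card_iff_ne_bot A).2 hA.ne_bot
    omega)
  have h := F.mult_eq _ one_mem_irr p hp
  rw [mult_one (mem_erase.1 hp).2, if_neg (mem_erase.1 hp).1,
    if_neg fun e => F.ne_one p hp e.symm, add_zero] at h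
  rw [dd, mult_one one_mem_irr, if_pos rfl, ← h, sub_zero]

/-- **`dd` is invariant under complex conjugation.** -/
theorem dd_inv (hodd : Odd (Nat.card G)) {ψ : G → ℂ} (hψ : ψ ∈ irr G) :
    F.dd (fun x => ψ x⁻¹) = F.dd ψ := by
  have h1 : mult A (fun x => ψ x⁻¹) (fun _ => 1) = mult A ψ (fun _ => 1) :=
    mult_inv hψ one_mem_irr
  have hinvol : ∀ p ∈ Lin A, (fun x => p x⁻¹) ∈ Lin A := fun p hp => by
    refine mem_erase.2 ⟨fun e => (mem_erase.1 hp).1 (funext fun x => ?_),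
      inv_mem_irr (mem_erase.1 hp).2⟩
    simpa using congrFun e x⁻¹
  have hsum : ∑ p ∈ Lin A, mult A (fun x => ψ x⁻¹) p = ∑ p ∈ Lin A, mult A ψ p :=
    sum_nbij' (fun p x => p x⁻¹) (fun p x => p x⁻¹) hinvol hinvol
      (fun p _ => funext fun x => by simp) (fun p _ => funext fun x => by simp) fun p hp => by
        rw [← mult_inv hψ (inv_mem_irr (mem_erase.1 hp).2)]
        simp
  have s1 := F.sum_Lin hA (inv_mem_irr hψ) id
  have s2 := F.sum_Lin hA hψ id
  simp only [id] at s1 s2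
  rw [s1, s2] at hsum
  have hw : (Nat.card A : ℤ) - 1 = F.fam.card * en A := by
    rw [← F.card_fam_mul hA]; push_cast; ring
  have hw2 : (2 : ℤ) ≤ F.fam.card := by exact_mod_cast F.two_le_card hA hodd
  have he : (en A : ℤ) ≠ 0 := fun e => by
    have := F.card_fam_mul hA
    rw [Int.natCast_eq_zero.1 e, mul_zero, zero_add] at this
    exact hA.ne_bot (Subgroup.card_eq_one.1 this.symm)
  rw [hw] at hsum
  set k := F.m (fun x => ψ x⁻¹) - F.m ψ with hk
  set r : ℤ := (if ψ ∈ F.fam then 1 else 0) - (if (fun x => ψ x⁻¹) ∈ F.fam then 1 else 0) with hr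
  have h2 : (F.fam.card : ℤ) * k = F.eps * r := by
    refine mul_left_cancel₀ he ?_
    rw [hk, hr]
    split_ifs at hsum ⊢ <;> linear_combination hsum
  have h3 : -1 ≤ F.eps * r ∧ F.eps * r ≤ 1 := by
    rw [hr]
    rcases F.eps_eq with h | h <;> rw [h] <;> constructor <;> split_ifs <;> norm_num
  have hk0 : k = 0 := by
    rcases lt_trichotomy k 0 with hneg | h0 | hpos
    · nlinarith
    · exact h0
    · nlinarith
  rw [dd, dd, h1]
  linarith

/-- `dd` is constant on the family. -/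
theorem dd_fam {p q : A → ℂ} (hp : p ∈ Lin A) (hq : q ∈ Lin A) :
    F.dd (F.f p) = F.dd (F.f q) := by
  rcases eq_or_ne (F.f p) (F.f q) with h | h
  · rw [h]
  have e := hA.gram_one hp hp hq
  rw [sum_congr rfl fun ψ hψ => by
    rw [show mult A ψ (fun _ => 1) - mult A ψ p = F.dd ψ - if ψ = F.f p then F.eps else 0 by
        rw [dd, F.mult_eq ψ hψ p hp]; ring,
      show mult A ψ p - mult A ψ q = pm (F.f p) (F.f q) ψ * F.eps by
        rw [F.mult_eq ψ hψ p hp, F.mult_eq ψ hψ q hq, pm]; split_ifs <;> ring,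
      mul_comm, mul_assoc], sum_pm_mul (F.mem p hp) (F.mem q hq), if_pos rfl, if_neg h.symm,
    ind, ind, if_pos (Rel.refl p), if_neg fun r => h ((F.fibre p hp q hq).2 r), sub_zero] at e
  have := F.eps_sq
  rcases F.eps_eq with h1 | h1 <;> rw [h1] at e <;> linarith

/-- **The column bound.** -/
theorem sum_dd_sq_le (hodd : Odd (Nat.card G)) {S : Finset (G → ℂ)} (hS : S ⊆ irr G)
    (h1 : (fun _ => 1) ∉ S) (h2 : Disjoint S F.fam) : ∑ ψ ∈ S, F.dd ψ ^ 2 + 1 ≤ en A := by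
  obtain ⟨p, hp, q, hq, hpq⟩ := hA.exists_not_rel hodd
  have hne : F.f p ≠ F.f q := fun e => hpq ((F.fibre p hp q hq).1 e)
  have e := hA.gram_one_one hp
  rw [sum_congr rfl fun ψ hψ => by
    rw [show mult A ψ (fun _ => 1) - mult A ψ p = F.dd ψ - if ψ = F.f p then F.eps else 0 by
      rw [dd, F.mult_eq ψ hψ p hp]; ring]] at e
  set g : (G → ℂ) → ℤ := fun ψ => (F.dd ψ - if ψ = F.f p then F.eps else 0) ^ 2
  have hnot : ∀ ψ ∈ S, ψ ≠ F.f p ∧ ψ ≠ F.f q := fun ψ hψ =>
    ⟨fun h => disjoint_left.1 h2 hψ (h ▸ mem_image_of_mem _ hp),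
      fun h => disjoint_left.1 h2 hψ (h ▸ mem_image_of_mem _ hq)⟩
  have hle : ∑ ψ ∈ insert (fun _ => 1) (insert (F.f p) (insert (F.f q) S)), g ψ ≤
      ∑ ψ ∈ irr G, g ψ := by
    refine sum_le_sum_of_subset_of_nonneg ?_ fun ψ _ _ => sq_nonneg _
    exact insert_subset one_mem_irr (insert_subset (F.mem p hp) (insert_subset (F.mem q hq) hS))
  rw [sum_insert, sum_insert, sum_insert fun h => (hnot _ h).2 rfl,
    sum_congr rfl fun ψ hψ => show g ψ = F.dd ψ ^ 2 by simp [g, (hnot ψ hψ).1],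
    show g (fun _ => 1) = 1 by simp [g, (F.ne_one p hp).symm, F.dd_one hA],
    show g (F.f p) = (F.dd (F.f p) - F.eps) ^ 2 by simp [g],
    show g (F.f q) = F.dd (F.f p) ^ 2 by simp [g, hne.symm, F.dd_fam hA hp hq], e] at hle
  · have h3 : 1 ≤ (F.dd (F.f p) - F.eps) ^ 2 + F.dd (F.f p) ^ 2 := by
      rcases eq_or_ne (F.dd (F.f p)) 0 with h0 | h0
      · rw [h0]
        linarith [show F.eps ^ 2 = 1 by rw [sq, F.eps_sq], show (0 - F.eps) ^ 2 = F.eps ^ 2 by ring]
      · have := Int.add_one_le_iff.2 (pow_two_pos_of_ne_zero h0)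
        have := sq_nonneg (F.dd (F.f p) - F.eps)
        omega
    linarith
  · simp only [mem_insert, not_or]
    exact ⟨hne, fun h => (hnot _ h).1 rfl⟩
  · simp only [mem_insert, not_or]
    exact ⟨(F.ne_one p hp).symm, (F.ne_one q hq).symm, h1⟩

/-- The squares of the values on `A`, outside the family. -/
theorem values_of_notMem {ψ : G → ℂ} (hψ : ψ ∈ irr G) (h : ψ ∉ F.fam) :
    ∑ x ∈ (univ : Finset G).filter (fun x => x ∈ A ∧ x ≠ 1), ψ x * ψ x⁻¹ =
      ((((Nat.card A : ℤ) - 1) * F.dd ψ ^ 2 : ℤ) : ℂ) := by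
  rw [(hA.sum_sq_values hψ).2, ← add_sum_erase _ _ (one_mem_irr (G := A)),
    ← add_sum_erase _ _ (one_mem_irr (G := A)), ← Lin, F.sum_Lin hA hψ (· ^ 2),
    show ∑ p ∈ Lin A, mult A ψ p = _ from F.sum_Lin hA hψ id, if_neg h, dd]
  simp only [id]
  push_cast
  ring

/-- The squares of the values of a member of the family. -/
theorem values_of_mem (hodd : Odd (Nat.card G)) {ψ : G → ℂ} (hψ : ψ ∈ irr G) (h : ψ ∈ F.fam) :
    ∃ T : ℤ, (en A : ℤ) * ((Nat.card A : ℤ) - en A) ≤ T ∧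
      ∑ x ∈ (univ : Finset G).filter (fun x => x ∈ A ∧ x ≠ 1), ψ x * ψ x⁻¹ = (T : ℂ) := by
  refine ⟨_, ?_, (hA.sum_sq_values hψ).2⟩
  rw [← add_sum_erase _ _ (one_mem_irr (G := A)), ← add_sum_erase _ _ (one_mem_irr (G := A)),
    ← Lin, F.sum_Lin hA hψ (· ^ 2), show ∑ p ∈ Lin A, mult A ψ p = _ from F.sum_Lin hA hψ id,
    if_pos h]
  simp only [id]
  set c := F.dd ψ with hc
  rw [show mult A ψ (fun _ => 1) = F.m ψ + c by rw [hc, dd]; ring]
  have hw2 : (2 : ℤ) ≤ F.fam.card := by exact_mod_cast F.two_le_card hA hodd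
  have hw : (Nat.card A : ℤ) = F.fam.card * en A + 1 := by exact_mod_cast (F.card_fam_mul hA).symm
  have he : (0 : ℤ) ≤ en A := Int.natCast_nonneg _
  have hkey : 0 ≤ (F.fam.card : ℤ) * c ^ 2 - 2 * F.eps * c := by
    rcases F.eps_eq with h1 | h1 <;> rw [h1] <;> rcases lt_trichotomy c 0 with h2 | h2 | h2 <;>
      nlinarith
  rw [hw]
  have hsq := congrArg (fun t => t * ((en A : ℤ) * (F.fam.card * en A + 1 - en A))) F.eps_sq
  nlinarith [mul_nonneg he hkey]

variable (F' : Fam B) (hB : Sc B) (hAB : ¬ Cj B A)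

include hB hAB

theorem disjoint_fam (hodd : Odd (Nat.card G)) : Disjoint F.fam F'.fam := by
  rw [disjoint_left]
  intro χ h h'
  obtain ⟨p, hp, rfl⟩ := mem_image.1 h
  obtain ⟨q, hq, he⟩ := mem_image.1 h'
  obtain ⟨p', hp', hpp'⟩ : ∃ p' ∈ Lin A, F.f p' ≠ F.f p := by
    obtain ⟨χ, hχ, hne⟩ := exists_mem_ne (F.two_le_card hA hodd) (F.f p)
    obtain ⟨p', hp', rfl⟩ := mem_image.1 hχ
    exact ⟨p', hp', hne⟩
  obtain ⟨q', hq', hqq'⟩ : ∃ q' ∈ Lin B, F'.f q' ≠ F'.f q := by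
    obtain ⟨χ, hχ, hne⟩ := exists_mem_ne (F'.two_le_card hB hodd) (F'.f q)
    obtain ⟨q', hq', rfl⟩ := mem_image.1 hχ
    exact ⟨q', hq', hne⟩
  have e := hA.gram_disjoint hB hAB (mem_erase.1 hp).2 (mem_erase.1 hp').2 (mem_erase.1 hq).2
    (mem_erase.1 hq').2
  rw [sum_congr rfl fun ψ hψ => by
    rw [show mult A ψ p - mult A ψ p' = pm (F.f p) (F.f p') ψ * F.eps by
        rw [F.mult_eq ψ hψ p hp, F.mult_eq ψ hψ p' hp', pm]; split_ifs <;> ring,
      show mult B ψ q - mult B ψ q' = pm (F'.f q) (F'.f q') ψ * F'.eps by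
        rw [F'.mult_eq ψ hψ q hq, F'.mult_eq ψ hψ q' hq', pm]; split_ifs <;> ring,
      mul_assoc], sum_pm_mul (F.mem p hp) (F.mem p' hp'), he] at e
  simp only [pm, if_true, if_neg hpp'] at e
  rw [if_neg (he ▸ hqq').symm] at e
  rcases F.eps_eq with h1 | h1 <;> rcases F'.eps_eq with h2 | h2 <;> rw [h1, h2] at e <;>
    split_ifs at e <;> omega

/-- `dd` is constant on another family. -/
theorem dd_other (hodd : Odd (Nat.card G)) {q q' : B → ℂ} (hq : q ∈ Lin B) (hq' : q' ∈ Lin B) :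
    F.dd (F'.f q) = F.dd (F'.f q') := by
  obtain ⟨p, hp, -⟩ := hA.exists_not_rel hodd
  have hd := F.disjoint_fam hA F' hB hAB hodd
  have hn : ∀ r ∈ Lin B, F'.f r ≠ F.f p := fun r hr h =>
    disjoint_left.1 hd (mem_image_of_mem _ hp) (h ▸ mem_image_of_mem F'.f hr)
  have e := hA.gram_disjoint hB hAB (one_mem_irr (G := A)) (mem_erase.1 hp).2 (mem_erase.1 hq).2
    (mem_erase.1 hq').2
  rw [sum_congr rfl fun ψ hψ => by
    rw [show mult A ψ (fun _ => 1) - mult A ψ p = F.dd ψ - if ψ = F.f p then F.eps else 0 by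
        rw [dd, F.mult_eq ψ hψ p hp]; ring,
      show mult B ψ q - mult B ψ q' = pm (F'.f q) (F'.f q') ψ * F'.eps by
        rw [F'.mult_eq ψ hψ q hq, F'.mult_eq ψ hψ q' hq', pm]; split_ifs <;> ring,
      mul_comm, mul_assoc], sum_pm_mul (F'.mem q hq) (F'.mem q' hq'), if_neg (hn q hq),
    if_neg (hn q' hq'), sub_zero, sub_zero] at e
  rcases F'.eps_eq with h | h <;> rw [h] at e <;> linarith

/-- **The parity relation** between two classes. -/
theorem dd_ne_zero (hodd : Odd (Nat.card G)) {p : A → ℂ} (hp : p ∈ Lin A) {q : B → ℂ}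
    (hq : q ∈ Lin B) : F.dd (F'.f q) ≠ 0 ∨ F'.dd (F.f p) ≠ 0 := by
  by_contra hall
  push Not at hall
  have hd := F.disjoint_fam hA F' hB hAB hodd
  have e := hA.gram_disjoint hB hAB (one_mem_irr (G := A)) (mem_erase.1 hp).2
    (one_mem_irr (G := B)) (mem_erase.1 hq).2
  rw [sum_congr rfl fun ψ hψ => by
    rw [show mult A ψ (fun _ => 1) - mult A ψ p = F.dd ψ - if ψ = F.f p then F.eps else 0 by
        rw [dd, F.mult_eq ψ hψ p hp]; ring,
      show mult B ψ (fun _ => 1) - mult B ψ q = F'.dd ψ - if ψ = F'.f q then F'.eps else 0 by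
        rw [dd, F'.mult_eq ψ hψ q hq]; ring]] at e
  rw [sum_congr rfl fun ψ _ => show _ = F.dd ψ * F'.dd ψ by
    rcases eq_or_ne ψ (F.f p) with h | h
    · have : ψ ≠ F'.f q := fun h' => disjoint_left.1 hd (h ▸ mem_image_of_mem F.f hp)
        (h' ▸ mem_image_of_mem F'.f hq)
      rw [if_pos h, if_neg this, h, hall.2]
      ring
    · rw [if_neg h]
      rcases eq_or_ne ψ (F'.f q) with h' | h'
      · rw [if_pos h', h', hall.1]
        ring
      · rw [if_neg h']
        ring, ← add_sum_erase _ _ (one_mem_irr (G := G)), F.dd_one hA, F'.dd_one hB, one_mul] at e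
  have hz : ∑ ψ ∈ (irr G).erase (fun _ => 1), ((F.dd ψ * F'.dd ψ : ℤ) : ZMod 2) = 0 := by
    refine sum_involution (fun ψ _ => fun x => ψ x⁻¹) (fun ψ hψ => ?_) (fun ψ hψ _ heq => ?_)
      (fun ψ hψ => ?_) fun ψ _ => funext fun x => by simp
    · rw [F.dd_inv hA hodd (mem_erase.1 hψ).2, F'.dd_inv hB hodd (mem_erase.1 hψ).2]
      exact CharTwo.add_self_eq_zero _
    · exact (mem_erase.1 hψ).1
        (eq_one_of_inv_eq hodd (mem_erase.1 hψ).2 fun x => congrFun heq x)
    · refine mem_erase.2 ⟨fun e => (mem_erase.1 hψ).1 (funext fun x => ?_),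
        inv_mem_irr (mem_erase.1 hψ).2⟩
      simpa using congrFun e x⁻¹
  rw [← Int.cast_sum, eq_neg_of_add_eq_zero_right e] at hz
  exact absurd hz (by decide)

end Fam

end FA.SuzukiCA

end
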