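import Fermat.Agent.Root.SummaryFrobeniusGroups
import Mathlib.GroupTheory.Index

/-!
# CA-groups

In a CA-group (centralisers of nontrivial elements are abelian) these centralisers `A` are
self-centralising and meet their conjugates trivially, and every nontrivial element is conjugate
into exactly one of a set of representatives of their classes.
-/

set_option autoImplicit false
set_option linter.style.haveILetI false

namespace FA.SuzukiCA

open Subgroup

variable {G : Type*} [Group G]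

/-- The centralisers of the nontrivial elements are abelian. -/
def IsCA (G : Type*) [Group G] : Prop :=
  ∀ x : G, x ≠ 1 → ∀ a b : G, a * x = x * a → b * x = x * b → a * b = b * a

theorem IsCA.subgroup (h : IsCA G) (H : Subgroup G) : IsCA H := fun x hx a b ha hb =>
  Subtype.ext (h x (fun e => hx (Subtype.ext e)) a b (congrArg Subtype.val ha)
    (congrArg Subtype.val hb))

/-- A nontrivial subgroup that is the centraliser of each of its nontrivial elements. -/
structure Sc (A : Subgroup G) : Prop where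
  ne_bot : A ≠ ⊥
  cent : ∀ a ∈ A, a ≠ 1 → ∀ g : G, g ∈ A ↔ g * a = a * g

/-- Conjugate subgroups. -/
def Cj (A B : Subgroup G) : Prop := ∃ c : G, ∀ x, x ∈ B ↔ c * x * c⁻¹ ∈ A

theorem Cj.refl (A : Subgroup G) : Cj A A := ⟨1, fun x => by simp⟩

theorem Cj.symm {A B : Subgroup G} : Cj A B → Cj B A := fun ⟨c, hc⟩ => ⟨c⁻¹, fun x => by
  rw [hc, show c * (c⁻¹ * x * c⁻¹⁻¹) * c⁻¹ = x by group]⟩

theorem Cj.trans {A B C : Subgroup G} : Cj A B → Cj B C → Cj A C :=
  fun ⟨c, hc⟩ ⟨d, hd⟩ => ⟨c * d, fun x => by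
    rw [hd, hc, show c * (d * x * d⁻¹) * c⁻¹ = c * d * x * (c * d)⁻¹ by group]⟩

/-- The centraliser of a nontrivial element of a CA-group. -/
theorem IsCA.sc_centralizer (h : IsCA G) {x : G} (hx : x ≠ 1) : Sc (centralizer {x}) := by
  refine ⟨fun e => hx ?_, fun a ha hne g => ?_⟩
  · exact mem_bot.1 (e ▸ mem_centralizer_singleton_iff.2 rfl : x ∈ (⊥ : Subgroup G))
  · rw [mem_centralizer_singleton_iff] at ha ⊢
    exact ⟨fun hg => h x hx g a hg ha, fun hg => h a hne g x hg ha.symm⟩

variable {A B : Subgroup G} (hA : Sc A)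

include hA in
theorem Sc.comm (a : G) (ha : a ∈ A) (b : G) (hb : b ∈ A) : a * b = b * a := by
  rcases eq_or_ne b 1 with rfl | hb1
  · rw [mul_one, one_mul]
  · exact (hA.cent b hb hb1 a).1 ha

include hA in
theorem Sc.eq_of_mem (hB : Sc B) {x : G} (hx : x ≠ 1) (hxA : x ∈ A) (hxB : x ∈ B) : A = B :=
  Subgroup.ext fun g => (hA.cent x hxA hx g).trans (hB.cent x hxB hx g).symm

include hA in
theorem Sc.conj (c : G) (hB : ∀ x, x ∈ B ↔ c * x * c⁻¹ ∈ A) : Sc B := by
  refine ⟨fun e => hA.ne_bot ((eq_bot_iff_forall A).2 fun a ha => ?_), fun b hb hne g => ?_⟩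
  · have h1 : c⁻¹ * a * c ∈ B :=
      (hB _).2 (by rwa [show c * (c⁻¹ * a * c) * c⁻¹ = a by group])
    rw [e, mem_bot] at h1
    rw [show a = c * (c⁻¹ * a * c) * c⁻¹ by group, h1, mul_one, mul_inv_cancel]
  · rw [hB, hA.cent _ ((hB b).1 hb) (fun e => hne (conj_eq_one_iff.1 e)),
      show c * g * c⁻¹ * (c * b * c⁻¹) = c * (g * b) * c⁻¹ by group,
      show c * b * c⁻¹ * (c * g * c⁻¹) = c * (b * g) * c⁻¹ by group, mul_left_inj, mul_right_inj]

theorem IsCA.cj_centralizer {x : G} (c : G) :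
    Cj (centralizer {c * x * c⁻¹}) (centralizer {x}) := by
  refine ⟨c, fun g => ?_⟩
  rw [mem_centralizer_singleton_iff, mem_centralizer_singleton_iff,
    show c * g * c⁻¹ * (c * x * c⁻¹) = c * (g * x) * c⁻¹ by group,
    show c * x * c⁻¹ * (c * g * c⁻¹) = c * (x * g) * c⁻¹ by group, mul_left_inj, mul_right_inj]

include hA in
/-- **Trivial intersection.** -/
theorem Sc.mem_normalizer {g x : G} (hx : x ∈ A) (hne : x ≠ 1) (hg : g * x * g⁻¹ ∈ A) :
    g ∈ normalizer (A : Set G) := by
  refine mem_normalizer_iff.2 fun y => ?_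
  rw [hA.cent x hx hne y, hA.cent _ hg (fun e => hne (conj_eq_one_iff.1 e)),
    show g * y * g⁻¹ * (g * x * g⁻¹) = g * (y * x) * g⁻¹ by group,
    show g * x * g⁻¹ * (g * y * g⁻¹) = g * (x * y) * g⁻¹ by group, mul_left_inj, mul_right_inj]

theorem conj_mem_of_normalizer {g x : G} (hg : g ∈ normalizer (A : Set G)) (hx : x ∈ A) :
    g * x * g⁻¹ ∈ A := (mem_normalizer_iff.1 hg x).1 hx

/-- The index of `A` in its normaliser. -/
noncomputable def en (A : Subgroup G) : ℕ := A.relIndex (normalizer (A : Set G))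

theorem en_mul_card : en A * Nat.card A = Nat.card (normalizer (A : Set G)) := by
  rw [en, relIndex, ← Nat.card_congr (subgroupOfEquivOfLe Subgroup.le_normalizer).toEquiv]
  exact index_mul_card _

theorem index_mul_en_mul_card :
    (normalizer (A : Set G)).index * (en A * Nat.card A) = Nat.card G := by
  rw [en_mul_card, index_mul_card]

/-- The set of elements mapping a fixed element into `A` under conjugation. -/
theorem Sc.conj_set (hA : Sc A) {x c : G} (hx : x ≠ 1) (hc : c * x * c⁻¹ ∈ A) (g : G) :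
    g * x * g⁻¹ ∈ A ↔ g * c⁻¹ ∈ normalizer (A : Set G) := by
  constructor
  · intro h
    refine hA.mem_normalizer hc (fun e => hx (conj_eq_one_iff.1 e)) ?_
    rwa [show g * c⁻¹ * (c * x * c⁻¹) * (g * c⁻¹)⁻¹ = g * x * g⁻¹ by group]
  · intro h
    have := conj_mem_of_normalizer h hc
    rwa [show g * c⁻¹ * (c * x * c⁻¹) * (g * c⁻¹)⁻¹ = g * x * g⁻¹ by group] at this

variable [Fintype G]

open scoped Classical in
/-- **A set of representatives** of the classes of centralisers. -/
theorem IsCA.exists_reps (h : IsCA G) : ∃ R : Finset (Subgroup G), (∀ B ∈ R, Sc B) ∧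
    ∀ y : G, y ≠ 1 → ∃! B, B ∈ R ∧ ∃ c : G, c * y * c⁻¹ ∈ B := by
  haveI := Fintype.ofFinite (Subgroup G)
  let s : Setoid (Subgroup G) := ⟨Cj, ⟨Cj.refl, Cj.symm, Cj.trans⟩⟩
  set rep : Subgroup G → Subgroup G := fun M => (Quotient.mk s M).out
  have hrep : ∀ M, Cj (rep M) M := fun M => Quotient.exact (Quotient.out_eq (Quotient.mk s M))
  have hrep' : ∀ M M', Cj M M' → rep M = rep M' := fun M M' hMM' =>
    congrArg Quotient.out (Quotient.sound hMM')
  set R := ((Finset.univ : Finset G).filter (· ≠ 1)).image fun x => rep (centralizer {x})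
  have hsc : ∀ B ∈ R, Sc B := fun B hB => by
    obtain ⟨x, hx, rfl⟩ := Finset.mem_image.1 hB
    obtain ⟨c, hc⟩ := (hrep (centralizer {x})).symm
    exact (h.sc_centralizer (Finset.mem_filter.1 hx).2).conj c hc
  refine ⟨R, hsc, fun y hy => ⟨rep (centralizer {y}), ⟨Finset.mem_image.2 ⟨y, by simp [hy], rfl⟩, ?_⟩,
    fun B ⟨hB, c, hc⟩ => ?_⟩⟩
  · obtain ⟨c, hc⟩ := hrep (centralizer {y})
    exact ⟨c, (hc y).1 (mem_centralizer_singleton_iff.2 rfl)⟩
  · have hne : c * y * c⁻¹ ≠ 1 := fun e => hy (conj_eq_one_iff.1 e)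
    have heq : B = centralizer {c * y * c⁻¹} := (hsc B hB).eq_of_mem (h.sc_centralizer hne) hne hc
      (mem_centralizer_singleton_iff.2 rfl)
    obtain ⟨x, hx, rfl⟩ := Finset.mem_image.1 hB
    refine hrep' _ _ ((hrep (centralizer {x})).symm.trans ?_)
    rw [heq]
    exact IsCA.cj_centralizer c

open scoped Classical in
/-- **Summing a class function** over the nontrivial elements. -/
theorem sum_ne_one {R : Finset (Subgroup G)} (hR : ∀ B ∈ R, Sc B)
    (hcov : ∀ y : G, y ≠ 1 → ∃! B, B ∈ R ∧ ∃ c : G, c * y * c⁻¹ ∈ B) {k : Type*} [Field k]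
    [CharZero k] (F : G → k) (hF : ∀ g x, F (g * x * g⁻¹) = F x) :
    ∑ y ∈ (Finset.univ : Finset G).erase 1, F y =
      ∑ B ∈ R, ((normalizer (B : Set G)).index : k) *
        ∑ x ∈ (Finset.univ : Finset G).filter (fun x => x ∈ B ∧ x ≠ 1), F x := by
  set U : Subgroup G → Finset G := fun B =>
    (Finset.univ : Finset G).filter fun y => y ≠ 1 ∧ ∃ c : G, c * y * c⁻¹ ∈ B
  have hd : Set.PairwiseDisjoint (↑R) U := fun B hB B' hB' hne => Finset.disjoint_left.2
    fun y hy hy' => hne ((hcov y (Finset.mem_filter.1 hy).2.1).unique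
      ⟨hB, (Finset.mem_filter.1 hy).2.2⟩ ⟨hB', (Finset.mem_filter.1 hy').2.2⟩)
  have hU : (Finset.univ : Finset G).erase 1 = R.biUnion U := by
    ext y
    simp only [Finset.mem_erase, Finset.mem_univ, and_true, Finset.mem_biUnion, U,
      Finset.mem_filter, true_and]
    exact ⟨fun hy => (hcov y hy).exists.imp fun B hB => ⟨hB.1, hy, hB.2⟩,
      fun ⟨_, _, hy, _⟩ => hy⟩
  rw [hU, Finset.sum_biUnion hd]
  refine Finset.sum_congr rfl fun B hB => ?_
  set N := normalizer (B : Set G)
  have hN : (Nat.card N : k) ≠ 0 := Nat.cast_ne_zero.2 Nat.card_pos.ne'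
  refine mul_left_cancel₀ hN ?_
  rw [← mul_assoc, ← Nat.cast_mul, mul_comm (Nat.card N), index_mul_card]
  -- count the pairs `(g, x)` through `y = g⁻¹ x g`
  calc (Nat.card N : k) * ∑ y ∈ U B, F y
      = ∑ y ∈ U B, ∑ _g ∈ (Finset.univ : Finset G).filter (fun g => g * y * g⁻¹ ∈ B), F y := by
        rw [Finset.mul_sum]
        refine Finset.sum_congr rfl fun y hy => ?_
        obtain ⟨hy1, c, hc⟩ := (Finset.mem_filter.1 hy).2
        rw [Finset.sum_const, nsmul_eq_mul]
        congr 2
        rw [← Fintype.card_subtype, ← Nat.card_eq_fintype_card]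
        exact Nat.card_congr
          { toFun := fun n => ⟨n * c, ((hR B hB).conj_set hy1 hc _).2 (by simp)⟩
            invFun := fun g => ⟨g * c⁻¹, ((hR B hB).conj_set hy1 hc _).1 g.2⟩
            left_inv := fun n => Subtype.ext (mul_inv_cancel_right _ _)
            right_inv := fun g => Subtype.ext (inv_mul_cancel_right _ _) }
    _ = ∑ g : G, ∑ y ∈ (U B).filter (fun y => g * y * g⁻¹ ∈ B), F y := by
        simp only [Finset.sum_filter]
        exact Finset.sum_comm
    _ = ∑ _g : G, ∑ x ∈ (Finset.univ : Finset G).filter (fun x => x ∈ B ∧ x ≠ 1), F x := by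
        refine Finset.sum_congr rfl fun g _ => Finset.sum_nbij' (fun y => g * y * g⁻¹)
          (fun x => g⁻¹ * x * g) (fun y hy => ?_) (fun x hx => ?_) (fun y _ => by group)
          (fun x _ => by group) fun y _ => (hF g y).symm
        · obtain ⟨hy, hgy⟩ := Finset.mem_filter.1 hy
          refine Finset.mem_filter.2 ⟨Finset.mem_univ _, hgy, fun e => ?_⟩
          exact (Finset.mem_filter.1 hy).2.1 (conj_eq_one_iff.1 e)
        · obtain ⟨hxB, hx1⟩ := (Finset.mem_filter.1 hx).2
          have he : g * (g⁻¹ * x * g) * g⁻¹ = x := by group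
          refine Finset.mem_filter.2 ⟨Finset.mem_filter.2 ⟨Finset.mem_univ _, fun e => hx1 ?_, g,
            he.symm ▸ hxB⟩, he.symm ▸ hxB⟩
          rw [← he, e, mul_one, mul_inv_cancel]
    _ = (Nat.card G : k) * _ := by
        rw [Finset.sum_const, Finset.card_univ, nsmul_eq_mul, Nat.card_eq_fintype_card]

include hA in
omit [Fintype G] in
/-- In a simple non-abelian group `A` is a proper subgroup of its normaliser. -/
theorem Sc.lt_normalizer [Finite G] (hs : ∀ H : Subgroup G, H.Normal → H = ⊥ ∨ H = ⊤)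
    (hnc : ∃ a b : G, a * b ≠ b * a) : ¬ normalizer (A : Set G) ≤ A := fun hle => by
  obtain ⟨K, hK, hc, -, -⟩ := FA.Summary.frobenius_kernel G A fun g hg x hx hgx => by
    by_contra hne
    exact hg (hle (hA.mem_normalizer hx hne hgx))
  rcases hs K hK with rfl | rfl
  · obtain ⟨a, b, hab⟩ := hnc
    have htop : A = ⊤ := by simpa using hc.sup_eq_top
    exact hab (hA.comm a (htop ▸ mem_top a) b (htop ▸ mem_top b))
  · exact hA.ne_bot (by simpa using hc.disjoint.eq_bot)

end FA.SuzukiCA
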