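import Fermat.Agent.SuzukiCA.Main
import Fermat.Agent.Root.SummaryFrobeniusComplements

/-!
# CA-groups of odd order are solvable

A solvable nontrivial normal subgroup gives an abelian one, whose centraliser is a normal
self-centralising subgroup with a fixed-point-free quotient of odd order, hence solvable.
-/

set_option autoImplicit false
set_option linter.style.haveILetI false

noncomputable section

namespace FA.SuzukiCA

open Subgroup

variable {G : Type*} [Group G] [Finite G]

omit [Finite G] in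
/-- The last nontrivial term of the derived series. -/
theorem exists_abelian_normal (H : Subgroup G) [H.Normal] (hne : H ≠ ⊥)
    (hsol : Group.IsSolvable H) :
    ∃ A : Subgroup G, A.Normal ∧ A ≠ ⊥ ∧ ∀ a ∈ A, ∀ b ∈ A, a * b = b * a := by
  classical
  obtain ⟨n, hn, hmin⟩ : ∃ n, derivedSeries H n = ⊥ ∧ ∀ k < n, derivedSeries H k ≠ ⊥ :=
    ⟨_, Nat.find_spec hsol.solvable, fun _ hk => Nat.find_min hsol.solvable hk⟩
  rcases n with _ | n
  · exfalso
    rw [derivedSeries_zero] at hn
    refine hne ((eq_bot_iff_forall H).2 fun h hh => ?_)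
    have : (⟨h, hh⟩ : H) ∈ (⊥ : Subgroup H) := hn ▸ mem_top _
    exact congrArg Subtype.val (mem_bot.1 this)
  set K := derivedSeries H n
  refine ⟨K.map H.subtype, inferInstance, fun h => hmin n (Nat.lt_succ_self n) ?_, ?_⟩
  · exact (map_eq_bot_iff_of_injective _ H.subtype_injective).1 h
  rintro _ ⟨a, ha, rfl⟩ _ ⟨b, hb, rfl⟩
  rw [derivedSeries_succ, commutator_eq_bot_iff_le_centralizer] at hn
  show (a : G) * b = b * a
  exact congrArg Subtype.val (mem_centralizer_iff.1 (hn hb) a ha)

omit [Finite G] in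
/-- A normal self-centralising subgroup. -/
theorem exists_normal_sc (hCA : IsCA G) (H : Subgroup G) [H.Normal] (hne : H ≠ ⊥)
    (hsol : Group.IsSolvable H) : ∃ A : Subgroup G, A.Normal ∧ Sc A := by
  obtain ⟨A₀, hA₀, hA₀ne, hcomm⟩ := exists_abelian_normal H hne hsol
  obtain ⟨a, ha, ha1⟩ : ∃ a ∈ A₀, a ≠ 1 := by
    by_contra hall
    push Not at hall
    exact hA₀ne ((eq_bot_iff_forall A₀).2 hall)
  refine ⟨centralizer {a}, ⟨fun y hy g => ?_⟩, hCA.sc_centralizer ha1⟩
  rw [mem_centralizer_singleton_iff] at hy ⊢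
  have hb : g⁻¹ * a * g ∈ A₀ := by simpa using hA₀.conj_mem a ha g⁻¹
  have h := hCA a ha1 y (g⁻¹ * a * g) hy (hcomm _ hb _ ha)
  calc g * y * g⁻¹ * a = g * (y * (g⁻¹ * a * g)) * g⁻¹ := by group
    _ = g * (g⁻¹ * a * g * y) * g⁻¹ := by rw [h]
    _ = a * (g * y * g⁻¹) := by group

/-- The quotient by a normal self-centralising subgroup is solvable. -/
theorem Sc.solvable_quotient {A : Subgroup G} [hn : A.Normal] (hA : Sc A)
    (hodd : Odd (Nat.card G)) : Group.IsSolvable (G ⧸ A) := by
  haveI : Nontrivial A := (nontrivial_iff_ne_bot A).2 hA.ne_bot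
  have hker : A ≤ (MulAut.conjNormal (H := A) : G →* MulAut A).ker := fun g hg => by
    refine MonoidHom.mem_ker.2 (MulEquiv.ext fun k => Subtype.ext ?_)
    show g * k * g⁻¹ = k
    rw [hA.comm g hg k k.2, mul_inv_cancel_right]
  have hfpf : ∀ q : G ⧸ A, q ≠ 1 → ∀ k : A,
      QuotientGroup.lift A (MulAut.conjNormal (H := A)) hker q k = k → k = 1 := by
    intro q
    obtain ⟨g, rfl⟩ := QuotientGroup.mk_surjective q
    intro hq k hk
    by_contra hne
    have h1 : g * (k : G) * g⁻¹ = k := congrArg Subtype.val hk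
    exact hq ((QuotientGroup.eq_one_iff g).2 ((hA.cent _ k.2 (fun e => hne (Subtype.ext e)) g).2
      (mul_inv_eq_iff_eq_mul.1 h1)))
  exact (FA.FrobeniusComplements.Summary.complement_odd_metacyclic _ hfpf
    (hodd.of_dvd_nat A.card_quotient_dvd_card)).2.1

/-- **Suzuki's theorem.** -/
theorem isSolvable (hodd : Odd (Nat.card G)) (hCA : IsCA G) : Group.IsSolvable G := by
  suffices ∀ (n : ℕ) (S : Subgroup G), Nat.card S = n → Group.IsSolvable S by
    haveI := this _ ⊤ rfl
    exact Group.isSolvable_of_surjective (f := (⊤ : Subgroup G).subtype) fun g => ⟨⟨g, mem_top g⟩, rfl⟩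
  intro n
  induction n using Nat.strong_induction_on with
  | _ n ih =>
    intro S hn
    by_cases hnc : ∃ a b : S, a * b ≠ b * a
    swap
    · push Not at hnc
      exact Group.isSolvable_of_comm hnc
    haveI := Fintype.ofFinite S
    have hS : Odd (Nat.card S) := hodd.of_dvd_nat S.card_subgroup_dvd_card
    obtain ⟨H, hH, hH0, hH1⟩ := exists_normal hS (hCA.subgroup S) hnc
    haveI := hH
    have hlt : Nat.card H < n :=
      hn ▸ lt_of_le_of_ne H.card_le_card_group fun h => hH1 (eq_top_of_card_eq _ h)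
    have hH' : Group.IsSolvable H := by
      haveI := ih _ hlt (H.map S.subtype)
        (Nat.card_congr (H.equivMapOfInjective _ S.subtype_injective).toEquiv.symm)
      exact Group.isSolvable_of_isSolvable_injective
        (f := (H.equivMapOfInjective _ S.subtype_injective).toMonoidHom)
        (H.equivMapOfInjective _ S.subtype_injective).injective
    obtain ⟨A, hA, hsc⟩ := exists_normal_sc (hCA.subgroup S) H hH0 hH'
    haveI := hA
    haveI : Group.IsSolvable A := Group.isSolvable_of_comm fun a b => hsc.comm' a b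
    exact (Group.isSolvable_iff_subgroup_quotient A).2 ⟨inferInstance, hsc.solvable_quotient hS⟩

/-- **The structure**: a Frobenius group with abelian kernel. -/
theorem exists_kernel (hodd : Odd (Nat.card G)) (hCA : IsCA G)
    (hnc : ∃ a b : G, a * b ≠ b * a) :
    ∃ A H : Subgroup G, A.Normal ∧ Sc A ∧ A.IsComplement' H ∧ H ≠ ⊥ ∧ A ≠ ⊤ ∧
      ∀ g ∉ H, ∀ x ∈ H, g * x * g⁻¹ ∈ H → x = 1 := by
  haveI := Fintype.ofFinite G
  haveI := isSolvable hodd hCA
  have htop : (⊤ : Subgroup G) ≠ ⊥ := fun h => by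
    obtain ⟨a, b, hab⟩ := hnc
    have ha : a = 1 := mem_bot.1 (h ▸ mem_top a)
    exact hab (by rw [ha, one_mul, mul_one])
  obtain ⟨A, hn, hA⟩ := exists_normal_sc hCA ⊤ htop inferInstance
  haveI := hn
  have hAtop : A ≠ ⊤ := fun h => by
    obtain ⟨a, b, hab⟩ := hnc
    exact hab (hA.comm a (h ▸ mem_top a) b (h ▸ mem_top b))
  obtain ⟨F⟩ := hA.exists_fam hodd
  have hidx : A.index = en A := by
    rw [en, normalizer_eq_top, relIndex_top_right]
  have hco : (Nat.card A).Coprime A.index := by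
    rw [hidx, ← F.card_fam_mul hA]
    exact (Nat.coprime_mul_right_add_left _ _ _).2 (Nat.coprime_one_left _)
  obtain ⟨H, hH⟩ := exists_right_complement'_of_coprime hco
  refine ⟨A, H, hn, hA, hH, fun h => hAtop ?_, hAtop, fun g hg x hx hgx => ?_⟩
  · have := hH.sup_eq_top
    rwa [h, sup_bot_eq] at this
  obtain ⟨⟨k, h⟩, hkh⟩ := hH.2 g
  simp only at hkh
  subst hkh
  have hk : (k : G) ≠ 1 := fun e => hg (by rw [e, one_mul]; exact h.2)
  by_contra hx1
  set y := (h : G) * x * (h : G)⁻¹ with hy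
  have hyH : y ∈ H := mul_mem (mul_mem h.2 hx) (inv_mem h.2)
  have he : (k : G) * h * x * ((k : G) * h)⁻¹ = k * y * (k : G)⁻¹ := by rw [hy]; group
  rw [he] at hgx
  have hc : (k : G) * y * (k : G)⁻¹ * y⁻¹ = 1 :=
    disjoint_def.1 hH.disjoint
      (by
        rw [show (k : G) * y * (k : G)⁻¹ * y⁻¹ = k * (y * (k : G)⁻¹ * y⁻¹) by group]
        exact mul_mem k.2 (hn.conj_mem _ (inv_mem k.2) y))
      (mul_mem hgx (inv_mem hyH))
  have hyA : y ∈ A := (hA.cent _ k.2 hk y).2 (by
    rw [mul_inv_eq_one, mul_inv_eq_iff_eq_mul] at hc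
    exact hc.symm)
  exact hx1 (conj_eq_one_iff.1 (disjoint_def.1 hH.disjoint hyA hyH))

end FA.SuzukiCA

end
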